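import Mathlib
import Fermat.Agent.MU.Lib.BadRed.Mod.GaussSetup
import Fermat.Agent.MU.Lib.BadRed.KroneckerCharpoly
import Fermat.Agent.MU.Lib.Kronecker.ProdDefs
import Fermat.Agent.MU.Lib.IgusaDeg.UMem

section MergeWrap_S36_Igusa_Defs -- from S36/Igusa/Defs.lean

set_option autoImplicit false

noncomputable section

attribute [local instance 10000] SubalgebraClass.toAlgebra HahnSeries.powerSeriesAlgebra

namespace Fermat.Agent.S36G

open ModularCurve AlgebraicCurve Fermat.Agent.GaussInt Fermat.Agent.Deuring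
  Fermat.Agent.Kronecker Fermat.Agent.BadRed

local notation "Qb" => AlgebraicClosure ℚ

/-! ### Gauss ring and residue function of an arbitrary expansion -/

section Generic

variable {F : Type*} [Field F] [Algebra Qb F]

/-- The Gauss ring of `F` with respect to an expansion `ε : F →ₐ ℚ̄((q))` and a valuation ring
`A` of `ℚ̄`: the `f` such that `ε f = Y₁ / Y₂` with `Y₁, Y₂ ∈ A((q))`, `Y₂` primitive (NO
condition "`Y₁, Y₂ ∈ ε F`": `gaussSub A ⊤`).  For the standard expansion of `F_N` this is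
`gaussValSub` (an overring of a valuation ring of rank one which does not contain `ℚ̄`). -/
def expOv (ε : F →ₐ[Qb] LaurentSeries Qb) (A : ValuationSubring Qb) : Subring F :=
  (gaussSub A (⊤ : IntermediateField Qb (LaurentSeries Qb))).comap ε.toRingHom

/-- The residue function of the expansion `ε` (zero outside `expOv ε A`). -/
def expRes (ε : F →ₐ[Qb] LaurentSeries Qb) (A : ValuationSubring Qb) (f : F) :
    LaurentSeries (IsLocalRing.ResidueField A) :=
  gaussResFun A (⊤ : IntermediateField Qb (LaurentSeries Qb)) (ε f)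

theorem mem_expOv_iff (ε : F →ₐ[Qb] LaurentSeries Qb) (A : ValuationSubring Qb) (f : F) :
    f ∈ expOv ε A ↔ ε f ∈ gaussSub A (⊤ : IntermediateField Qb (LaurentSeries Qb)) := Iff.rfl

end Generic

/-! ### The middle expansions -/

/-- `ε` is the middle expansion attached to the root of unity `z`:
`ε ∘ π₁^* = ` inclusion, `ε (y (q^{q²})) = y (z q)`. -/
structure IsMidExp (M₀ q : ℕ) [NeZero M₀] [NeZero q] (z : Qbˣ)
    (ε : ↥(modularFunctionFieldBar (M₀ * q * q)) →ₐ[Qb] LaurentSeries Qb) : Prop where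
  alpha : ∀ y : ↥(modularFunctionFieldBar (M₀ * q)),
    ε (heckeAlphaBar Qb (M₀ * q) q y) = (y : LaurentSeries Qb)
  beta2 : ∀ y : ↥(modularFunctionFieldBar M₀),
    ε (heckeBetaBar Qb (M₀ * q) q (heckeBetaBar Qb M₀ q y)) = scaleL z (y : LaurentSeries Qb)

/-- **(IG-EXP)** existence of the middle expansions (analytic input: expansion at the cusp
`γ ∞`, `γ = [[1,0],[q M₀ t,1]] ∈ Γ₀(q M₀)`, as in `Lib/Kronecker/ConjExp`; or algebraic input:
`y (z q)` is a root of the minimal polynomial of `y (q^{q²})` over `F₁`). -/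
def IgMidExpExists (M₀ q : ℕ) [NeZero M₀] [NeZero q] : Prop :=
  ∀ z : Qbˣ, IsPrimitiveRoot z q →
    ∃ ε : ↥(modularFunctionFieldBar (M₀ * q * q)) →ₐ[Qb] LaurentSeries Qb, IsMidExp M₀ q z ε

/-- **(IG-UNIQ)** uniqueness (`F = π₁^* F₁ · β² F₀`). -/
def IgMidExpUnique (M₀ q : ℕ) [NeZero M₀] [NeZero q] : Prop :=
  ∀ (z : Qbˣ) (ε ε' : ↥(modularFunctionFieldBar (M₀ * q * q)) →ₐ[Qb] LaurentSeries Qb),
    IsMidExp M₀ q z ε → IsMidExp M₀ q z ε' → ε = ε'

/-! ### The residue field `Fk_m = k(Z)(θ j̄)` -/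

/-- The function field of the Igusa curve `Ig(q) / ±1` over `Z = X₀(M₀)` mod `q`, as a field of
Laurent series: `k(Z)(θ j̄)`, `θ = q d/dq`. -/
def igField (k : Type*) [Field k] (M₀ : ℕ) : IntermediateField k (LaurentSeries k) :=
  IntermediateField.adjoin k
    ((modularFunctionFieldFullC k M₀ : Set (LaurentSeries k)) ∪
      {Fermat.Agent.IgusaDeg.theta k (jqModC k)})

theorem fullC_le_igField (k : Type*) [Field k] (M₀ : ℕ) :
    modularFunctionFieldFullC k M₀ ≤ igField k M₀ := fun _ hx =>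
  IntermediateField.subset_adjoin k _ (Or.inl hx)

theorem theta_mem_igField (k : Type*) [Field k] (M₀ : ℕ) :
    Fermat.Agent.IgusaDeg.theta k (jqModC k) ∈ igField k M₀ :=
  IntermediateField.subset_adjoin k _ (Or.inr rfl)

/-- the number of middle vertices: `2` for `q` odd, `1` for `q = 2`. -/
def midCard (q : ℕ) : ℕ := if q = 2 then 1 else 2

/-- the degree `e_m = (q - 1) / |Mid|` of `Fk_m` over `k(Z)`. -/
def midDeg (q : ℕ) : ℕ := (q - 1) / midCard q

/-- `S` is the constant reduction of `F` attached to the expansion `ε`, with residue field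
`igField k M₀` (the analogue of `BadRed.IsGaussSetup`). -/
structure IsMidSetup (M₀ q : ℕ) [NeZero M₀] [NeZero q] (A : ValuationSubring Qb)
    (ε : ↥(modularFunctionFieldBar (M₀ * q * q)) →ₐ[Qb] LaurentSeries Qb)
    (S : ValSetup Qb ↥(modularFunctionFieldBar (M₀ * q * q)) (IsLocalRing.ResidueField A)
      ↥(igField (IsLocalRing.ResidueField A) M₀)) : Prop where
  A_eq : S.A = A
  res_eq : ∀ (c : Qb) (h : c ∈ S.A) (h' : c ∈ A), S.res ⟨c, h⟩ = IsLocalRing.residue A ⟨c, h'⟩
  mem_iff : ∀ f : ↥(modularFunctionFieldBar (M₀ * q * q)), f ∈ S.Ov ↔ f ∈ expOv ε A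
  coe_red : ∀ f : ↥(modularFunctionFieldBar (M₀ * q * q)), f ∈ S.Ov →
    ((S.red f : ↥(igField (IsLocalRing.ResidueField A) M₀)) :
        LaurentSeries (IsLocalRing.ResidueField A)) = expRes ε A f

/-! ### The statements of the seat IG -/

/-- **(IG1) the middle constant reductions exist**: `expOv ε A` is a valuation ring with value
group `v(ℚ̄)`, its residue field is exactly `k(Z)(θ j̄)`, which is a function field in the sense
of the Riemann–Roch library, and the lattice property holds. -/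
def IgMidSetupExists (M₀ q : ℕ) [NeZero M₀] [NeZero q] : Prop :=
  q.Prime → ¬ q ∣ M₀ → ∀ (A : ValuationSubring Qb), A.LiesOverPrime q →
    ∀ (z : Qbˣ) (ε : ↥(modularFunctionFieldBar (M₀ * q * q)) →ₐ[Qb] LaurentSeries Qb),
      IsPrimitiveRoot z q → IsMidExp M₀ q z ε →
      ∃ S : ValSetup Qb ↥(modularFunctionFieldBar (M₀ * q * q)) (IsLocalRing.ResidueField A)
          ↥(igField (IsLocalRing.ResidueField A) M₀),
        IsMidSetup M₀ q A ε S ∧ HasLattice S

/-- **(IG-THETA)** the generator: `(j(q² τ) - j(τ)) / (z - 1)` is integral for `v_z` and its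
residue is `θ j̄`. -/
def IgThetaRes (M₀ q : ℕ) [NeZero M₀] [NeZero q] : Prop :=
  q.Prime → ∀ (A : ValuationSubring Qb), A.LiesOverPrime q →
    ∀ (z : Qbˣ) (ε : ↥(modularFunctionFieldBar (M₀ * q * q)) →ₐ[Qb] LaurentSeries Qb),
      IsPrimitiveRoot z q → IsMidExp M₀ q z ε →
      ∀ f : ↥(modularFunctionFieldBar (M₀ * q * q)),
        (ε f = (scaleL z (jqModC Qb) - jqModC Qb) * HahnSeries.C (((z : Qb) - 1)⁻¹)) →
        f ∈ expOv ε A ∧
          expRes ε A f = Fermat.Agent.IgusaDeg.theta (IsLocalRing.ResidueField A)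
            (jqModC (IsLocalRing.ResidueField A))

/-- **(IG2) the degree**: `[k(Z)(θ j̄) : k(Z)] = (q - 1) / |Mid|`, for every algebraically closed
field `k` of characteristic `q ∤ M₀`. -/
def IgDegree (M₀ q : ℕ) : Prop :=
  q.Prime → ¬ q ∣ M₀ → ∀ (k : Type) [Field k] [IsAlgClosed k] [CharP k q],
    IntermediateField.relfinrank (modularFunctionFieldFullC k M₀) (igField k M₀) = midDeg q

/-- **(IG2') Kummer relation**: `(θ j̄) ^ (midDeg q)` lies in `k(Z)` (even in `k(j̄)`). -/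
def IgKummer (M₀ q : ℕ) : Prop :=
  q.Prime → ∀ (k : Type) [Field k] [CharP k q],
    Fermat.Agent.IgusaDeg.theta k (jqModC k) ^ midDeg q ∈ modularFunctionFieldFullC k M₀

/-- a place of `k(Z)` is SUPERSINGULAR if `ssFun = Δ̄ ^ (1 - q)` vanishes there. -/
def IsSSPlace (k : Type*) [Field k] (M₀ q : ℕ)
    (P : Place k ↥(modularFunctionFieldFullC k M₀)) : Prop :=
  ∃ u : ↥(modularFunctionFieldFullC k M₀), (u : LaurentSeries k) = ssFun k q ∧ 0 < P.ord u

/-- **(IG3) total ramification at the supersingular places**: any two places of `Fk_m` which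
are positive on (the image of) the maximal ideal of a supersingular place of `k(Z)` coincide.
(`hno` = no elliptic points, guaranteed by the auxiliary level: `ord_P ssFun = 12`.) -/
def IgTotRam (M₀ q : ℕ) : Prop :=
  q.Prime → ¬ q ∣ M₀ → ∀ (k : Type) [Field k] [IsAlgClosed k] [CharP k q],
    ∀ P : Place k ↥(modularFunctionFieldFullC k M₀), IsSSPlace k M₀ q P →
      (∀ u : ↥(modularFunctionFieldFullC k M₀), (u : LaurentSeries k) = ssFun k q →
        P.ord u = 12) →
      ∀ Q Q' : Place k ↥(igField k M₀),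
        (∀ x : ↥(modularFunctionFieldFullC k M₀), 0 < P.ord x →
          0 < Q.ord (IntermediateField.inclusion (fullC_le_igField k M₀) x)) →
        (∀ x : ↥(modularFunctionFieldFullC k M₀), 0 < P.ord x →
          0 < Q'.ord (IntermediateField.inclusion (fullC_le_igField k M₀) x)) →
        Q = Q'

/-- **(IG6) the middle valuations are pairwise distinct up to squares**: `v_z = v_{z ^ a}` iff
`a` is a square modulo `q`. -/
def IgMidDistinct (M₀ q : ℕ) [NeZero M₀] [NeZero q] : Prop :=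
  q.Prime → ¬ q ∣ M₀ → ∀ (A : ValuationSubring Qb), A.LiesOverPrime q →
    ∀ (z : Qbˣ) (a : ℕ)
      (ε ε' : ↥(modularFunctionFieldBar (M₀ * q * q)) →ₐ[Qb] LaurentSeries Qb),
      IsPrimitiveRoot z q → ¬ q ∣ a → IsMidExp M₀ q z ε → IsMidExp M₀ q (z ^ a) ε' →
      (expOv ε A = expOv ε' A ↔ IsSquare (a : ZMod q))

/-- **(IG6') the middle valuations differ from `v_∞`** (`(j(q²τ) - j(τ))` is a `v_∞`-unit and
lies in the maximal ideal of `v_z`). -/
def IgMidNeInf (M₀ q : ℕ) [NeZero M₀] [NeZero q] : Prop :=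
  ∀ (hq : q.Prime), ¬ q ∣ M₀ → ∀ (A : ValuationSubring Qb) (hA : A.LiesOverPrime q),
    ∀ (z : Qbˣ) (ε : ↥(modularFunctionFieldBar (M₀ * q * q)) →ₐ[Qb] LaurentSeries Qb),
      IsPrimitiveRoot z q → IsMidExp M₀ q z ε →
      ∃ f : ↥(modularFunctionFieldBar (M₀ * q * q)),
        f ∈ gaussOv (M₀ * q * q) hq A hA ∧ f⁻¹ ∈ gaussOv (M₀ * q * q) hq A hA ∧
          f ∈ expOv ε A ∧ f⁻¹ ∉ expOv ε A

/-- **(IG5) restriction to level `q M₀` along `π₁`**: `v_z` lies over the Gauss valuation of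
`F₁` and the residue map restricts to the Gauss residue map of `F₁`
(so that `k(Z) ⊆ Fk_m` is the inclusion used in the norm formula (N2)). -/
def IgMidOverInf (M₀ q : ℕ) [NeZero M₀] [NeZero q] : Prop :=
  ∀ (A : ValuationSubring Qb),
    ∀ (z : Qbˣ) (ε : ↥(modularFunctionFieldBar (M₀ * q * q)) →ₐ[Qb] LaurentSeries Qb),
      IsMidExp M₀ q z ε → ∀ y : ↥(modularFunctionFieldBar (M₀ * q)),
        (y : LaurentSeries Qb) ∈ gaussSub A (modularFunctionFieldBar (M₀ * q)) →
        heckeAlphaBar Qb (M₀ * q) q y ∈ expOv ε A ∧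
          expRes ε A (heckeAlphaBar Qb (M₀ * q) q y) =
            gaussResFun A (modularFunctionFieldBar (M₀ * q)) (y : LaurentSeries Qb)

/-- **(IG4) Galois**: a field automorphism `σ` of `ℚ̄` preserving `A` maps `v_z` to
`v_{σ z}`: for `f` with rational coefficients pattern `σ`-conjugate `f^σ`
(`ε_{σ z} (f^σ) = coeffMap σ (ε_z f)`), `f ∈ O_z ↔ f^σ ∈ O_{σ z}`.
Stated on expansions (the seat INERT translates it to `galFun`). -/
def IgMidGalois (M₀ q : ℕ) [NeZero M₀] [NeZero q] : Prop :=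
  ∀ (A : ValuationSubring Qb) (σ : Qb ≃ₐ[ℚ] Qb), (∀ c : Qb, c ∈ A ↔ σ c ∈ A) →
    ∀ (z z' : Qbˣ) (ε ε' : ↥(modularFunctionFieldBar (M₀ * q * q)) →ₐ[Qb] LaurentSeries Qb),
      IsMidExp M₀ q z ε → IsMidExp M₀ q z' ε' → (z' : Qb) = σ (z : Qb) →
      ∀ f f' : ↥(modularFunctionFieldBar (M₀ * q * q)),
        (f' : LaurentSeries Qb) = coeffMap (σ : Qb →+* Qb) (f : LaurentSeries Qb) →
        ε' f' = coeffMap (σ : Qb →+* Qb) (ε f) ∧ (f ∈ expOv ε A ↔ f' ∈ expOv ε' A)

end Fermat.Agent.S36G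
end
end MergeWrap_S36_Igusa_Defs
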