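import Mathlib
import Fermat.Agent.MU.S36.Igusa.Defs

section MergeWrap_S36_Igusa_AsmDefs -- from S36/Igusa/AsmDefs.lean

set_option autoImplicit false

noncomputable section

namespace Fermat.Agent.S36G

open ModularCurve AlgebraicCurve Fermat.Agent.GaussInt Fermat.Agent.Deuring
  Fermat.Agent.Kronecker Fermat.Agent.BadRed Fermat.Agent.RR

local notation "Qb" => AlgebraicClosure ℚ

/-- **(V1)** `expOv ε A` is a valuation ring. -/
def IgValRing (M₀ q : ℕ) [NeZero M₀] [NeZero q] : Prop :=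
  q.Prime → ¬ q ∣ M₀ → ∀ (A : ValuationSubring Qb), A.LiesOverPrime q →
    ∀ (z : Qbˣ) (ε : ↥(modularFunctionFieldBar (M₀ * q * q)) →ₐ[Qb] LaurentSeries Qb),
      IsPrimitiveRoot z q → IsMidExp M₀ q z ε →
      ∀ f : ↥(modularFunctionFieldBar (M₀ * q * q)), f ∈ expOv ε A ∨ f⁻¹ ∈ expOv ε A

/-- **(V2)** the value group of `expOv ε A` is the value group of `A`. -/
def IgScale (M₀ q : ℕ) [NeZero M₀] [NeZero q] : Prop :=
  q.Prime → ¬ q ∣ M₀ → ∀ (A : ValuationSubring Qb), A.LiesOverPrime q →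
    ∀ (z : Qbˣ) (ε : ↥(modularFunctionFieldBar (M₀ * q * q)) →ₐ[Qb] LaurentSeries Qb),
      IsPrimitiveRoot z q → IsMidExp M₀ q z ε →
      ∀ f : ↥(modularFunctionFieldBar (M₀ * q * q)), f ≠ 0 →
        ∃ c : Qb, c ≠ 0 ∧
          f * (algebraMap Qb ↥(modularFunctionFieldBar (M₀ * q * q)) c)⁻¹ ∈ expOv ε A ∧
          (f * (algebraMap Qb ↥(modularFunctionFieldBar (M₀ * q * q)) c)⁻¹)⁻¹ ∈ expOv ε A

/-- **(V3)** the lattice property (orthonormal bases) of `expOv ε A`. -/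
def IgLattice (M₀ q : ℕ) [NeZero M₀] [NeZero q] : Prop :=
  q.Prime → ¬ q ∣ M₀ → ∀ (A : ValuationSubring Qb), A.LiesOverPrime q →
    ∀ (z : Qbˣ) (ε : ↥(modularFunctionFieldBar (M₀ * q * q)) →ₐ[Qb] LaurentSeries Qb),
      IsPrimitiveRoot z q → IsMidExp M₀ q z ε →
      ∀ W : Submodule Qb ↥(modularFunctionFieldBar (M₀ * q * q)), FiniteDimensional Qb W →
        ∃ (n : ℕ) (w : Fin n → ↥(modularFunctionFieldBar (M₀ * q * q))),
          (∀ i, w i ∈ W) ∧ (∀ i, w i ∈ expOv ε A) ∧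
          Submodule.span Qb (Set.range w) = W ∧
          LinearIndependent (IsLocalRing.ResidueField A) (fun i => expRes ε A (w i))

/-- **(U)** the residues of `expOv ε A` lie in `k(Z)(θ j̄)`. -/
def IgResUpper (M₀ q : ℕ) [NeZero M₀] [NeZero q] : Prop :=
  q.Prime → ¬ q ∣ M₀ → ∀ (A : ValuationSubring Qb), A.LiesOverPrime q →
    ∀ (z : Qbˣ) (ε : ↥(modularFunctionFieldBar (M₀ * q * q)) →ₐ[Qb] LaurentSeries Qb),
      IsPrimitiveRoot z q → IsMidExp M₀ q z ε →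
      ∀ f : ↥(modularFunctionFieldBar (M₀ * q * q)), f ∈ expOv ε A →
        expRes ε A f ∈ igField (IsLocalRing.ResidueField A) M₀

/-- **(RR)** `k(Z)(θ j̄)` is a function field in the sense of the Riemann–Roch library. -/
def IgRR (M₀ q : ℕ) : Prop :=
  q.Prime → ¬ q ∣ M₀ → ∀ (k : Type) [Field k] [IsAlgClosed k] [CharP k q],
    IsRRField k ↥(igField k M₀)

/-- **(DEG)** `[F_{M₀ q²} : F_{M₀ q}] = q` along `π₁^* = heckeAlphaBar`. -/
def IgDegF (M₀ q : ℕ) [NeZero M₀] [NeZero q] : Prop :=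
  q.Prime → ¬ q ∣ M₀ →
    letI := (heckeAlphaBar Qb (M₀ * q) q).toRingHom.toAlgebra
    FiniteDimensional ↥(modularFunctionFieldBar (M₀ * q))
        ↥(modularFunctionFieldBar (M₀ * q * q)) ∧
      Module.finrank ↥(modularFunctionFieldBar (M₀ * q))
        ↥(modularFunctionFieldBar (M₀ * q * q)) = q

end Fermat.Agent.S36G
end
end MergeWrap_S36_Igusa_AsmDefs
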