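import Mathlib
import Fermat.Agent.MU.S36.Igusa.AsmDefs
import Fermat.Agent.MU.Lib.GaussInt.ModularInst

section MergeWrap_S36_Igusa_AsmSetup -- from S36/Igusa/AsmSetup.lean

set_option autoImplicit false
set_option synthInstance.maxHeartbeats 400000

noncomputable section

attribute [local instance 10000] SubalgebraClass.toAlgebra HahnSeries.powerSeriesAlgebra

namespace Fermat.Agent.S36G

open ModularCurve AlgebraicCurve Fermat.Agent.GaussInt Fermat.Agent.Deuring
  Fermat.Agent.Kronecker Fermat.Agent.BadRed Fermat.Agent.RR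

local notation "Qb" => AlgebraicClosure ℚ

section Generic

variable {F : Type*} [Field F] [Algebra Qb F]
variable (ε : F →ₐ[Qb] LaurentSeries Qb) (A : ValuationSubring Qb)

/-- the whole field of Laurent series. -/
abbrev igTop : IntermediateField Qb (LaurentSeries Qb) := ⊤

theorem ig_mem_top (x : LaurentSeries Qb) : x ∈ igTop := IntermediateField.mem_top

/-- the map `expOv ε A → gaussSub A ⊤`. -/
def expIncl : expOv ε A →+* gaussSub A igTop where
  toFun f := ⟨ε (f : F), f.2⟩
  map_one' := Subtype.ext (map_one ε.toRingHom)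
  map_mul' f g := Subtype.ext (map_mul ε.toRingHom (f : F) (g : F))
  map_zero' := Subtype.ext (map_zero ε.toRingHom)
  map_add' f g := Subtype.ext (map_add ε.toRingHom (f : F) (g : F))

/-- the residue map of `expOv ε A`, with values in `k((q))`. -/
def expResHom : expOv ε A →+* LaurentSeries (IsLocalRing.ResidueField A) :=
  (gaussRes A igTop).comp (expIncl ε A)

theorem expResHom_apply (f : expOv ε A) : expResHom ε A f = expRes ε A (f : F) := rfl

theorem expRes_algebraMap {c : Qb} (hc : c ∈ A) :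
    expRes ε A (algebraMap Qb F c) =
      algebraMap (IsLocalRing.ResidueField A) (LaurentSeries (IsLocalRing.ResidueField A))
        (IsLocalRing.residue A ⟨c, hc⟩) := by
  unfold expRes
  rw [AlgHom.commutes]
  exact gaussResFun_algebraMap hc

theorem algebraMap_mem_expOv_iff (c : Qb) : algebraMap Qb F c ∈ expOv ε A ↔ c ∈ A := by
  rw [mem_expOv_iff, AlgHom.commutes]
  exact algebraMap_mem_gaussSub_iff

/-- elements with nonzero residue are units. -/
theorem inv_mem_expOv {f : F} (hf : f ∈ expOv ε A) (hres : expRes ε A f ≠ 0) :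
    f⁻¹ ∈ expOv ε A := by
  rw [mem_expOv_iff, map_inv₀]
  exact inv_mem_gaussSub hf hres

theorem expRes_mul {f g : F} (hf : f ∈ expOv ε A) (hg : g ∈ expOv ε A) :
    expRes ε A (f * g) = expRes ε A f * expRes ε A g :=
  map_mul (expResHom ε A) ⟨f, hf⟩ ⟨g, hg⟩

theorem expRes_add {f g : F} (hf : f ∈ expOv ε A) (hg : g ∈ expOv ε A) :
    expRes ε A (f + g) = expRes ε A f + expRes ε A g :=
  map_add (expResHom ε A) ⟨f, hf⟩ ⟨g, hg⟩

theorem expRes_neg {f : F} (hf : f ∈ expOv ε A) :
    expRes ε A (-f) = -expRes ε A f :=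
  map_neg (expResHom ε A) ⟨f, hf⟩

theorem expRes_one : expRes ε A (1 : F) = 1 := map_one (expResHom ε A)

theorem expRes_zero : expRes ε A (0 : F) = 0 := map_zero (expResHom ε A)

theorem expRes_inv {f : F} (hf : f ∈ expOv ε A) (hres : expRes ε A f ≠ 0) :
    expRes ε A f⁻¹ = (expRes ε A f)⁻¹ := by
  have hf0 : f ≠ 0 := by
    rintro rfl
    exact hres (expRes_zero ε A)
  have h := expRes_mul ε A hf (inv_mem_expOv ε A hf hres)
  rw [mul_inv_cancel₀ hf0, expRes_one] at h
  exact eq_inv_of_mul_eq_one_right h.symm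

/-- `expRes` of an integral series. -/
theorem expRes_of_emb {f : F} {Y : LaurentSeries A} (h : ε f = emb A Y) :
    f ∈ expOv ε A ∧ expRes ε A f = red A Y := by
  constructor
  · rw [mem_expOv_iff, h]
    exact emb_mem_gaussSub (ig_mem_top _)
  · unfold expRes
    rw [h]
    exact gaussResFun_emb (ig_mem_top _)

/-- the set of residues, as a subfield of `k((q))`. -/
def expResSubfield : Subfield (LaurentSeries (IsLocalRing.ResidueField A)) where
  carrier := {y | ∃ f : F, f ∈ expOv ε A ∧ expRes ε A f = y}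
  mul_mem' := by
    rintro _ _ ⟨f, hf, rfl⟩ ⟨g, hg, rfl⟩
    exact ⟨f * g, (expOv ε A).mul_mem hf hg, expRes_mul ε A hf hg⟩
  one_mem' := ⟨1, (expOv ε A).one_mem, expRes_one ε A⟩
  add_mem' := by
    rintro _ _ ⟨f, hf, rfl⟩ ⟨g, hg, rfl⟩
    exact ⟨f + g, (expOv ε A).add_mem hf hg, expRes_add ε A hf hg⟩
  zero_mem' := ⟨0, (expOv ε A).zero_mem, expRes_zero ε A⟩
  neg_mem' := by
    rintro _ ⟨f, hf, rfl⟩
    exact ⟨-f, (expOv ε A).neg_mem hf, expRes_neg ε A hf⟩
  inv_mem' := by
    rintro _ ⟨f, hf, rfl⟩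
    by_cases h0 : expRes ε A f = 0
    · rw [h0, inv_zero]
      exact ⟨0, (expOv ε A).zero_mem, expRes_zero ε A⟩
    · exact ⟨f⁻¹, inv_mem_expOv ε A hf h0, expRes_inv ε A hf h0⟩

/-- the field of residues of `expOv ε A`. -/
def expResField :
    IntermediateField (IsLocalRing.ResidueField A)
      (LaurentSeries (IsLocalRing.ResidueField A)) :=
  (expResSubfield ε A).toIntermediateField (by
    intro c
    obtain ⟨a, rfl⟩ := IsLocalRing.residue_surjective c
    exact ⟨algebraMap Qb F (a : Qb), (algebraMap_mem_expOv_iff ε A _).mpr a.2,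
      expRes_algebraMap ε A a.2⟩)

theorem mem_expResField_iff (y : LaurentSeries (IsLocalRing.ResidueField A)) :
    y ∈ expResField ε A ↔ ∃ f : F, f ∈ expOv ε A ∧ expRes ε A f = y := Iff.rfl

variable {ε A}
variable (hV : ∀ f : F, f ∈ expOv ε A ∨ f⁻¹ ∈ expOv ε A)

/-- `expOv ε A` as a valuation subring. -/
def expVal : ValuationSubring F :=
  { expOv ε A with mem_or_inv_mem' := hV }

theorem mem_expVal_iff (f : F) : f ∈ expVal hV ↔ f ∈ expOv ε A := Iff.rfl

variable
  (Fk : IntermediateField (IsLocalRing.ResidueField A)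
    (LaurentSeries (IsLocalRing.ResidueField A)))
  (hU : ∀ f : F, f ∈ expOv ε A → expRes ε A f ∈ Fk)

/-- the residue map with values in `Fk`. -/
def expResTo : expVal hV →+* Fk :=
  (expResHom ε A).codRestrict Fk.toSubring fun f => hU _ f.2

theorem coe_expResTo (f : expVal hV) :
    ((expResTo hV Fk hU f : Fk) : LaurentSeries (IsLocalRing.ResidueField A)) =
      expRes ε A (f : F) := rfl

theorem expResTo_eq_zero_iff (f : expVal hV) : expResTo hV Fk hU f = 0 ↔ ¬ IsUnit f := by
  constructor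
  · intro h0 hu
    have := hu.map (expResTo hV Fk hU)
    rw [h0] at this
    exact not_isUnit_zero this
  · intro hu
    by_contra hne
    apply hu
    have hne' : expRes ε A (f : F) ≠ 0 := by
      intro h0
      apply hne
      apply Subtype.ext
      rw [coe_expResTo, h0]
      rfl
    have hinv := inv_mem_expOv ε A f.2 hne'
    have hf0 : (f : F) ≠ 0 := by
      intro h0
      apply hne'
      rw [h0]
      exact expRes_zero ε A
    refine ⟨⟨f, ⟨(f : F)⁻¹, hinv⟩, ?_, ?_⟩, rfl⟩
    · exact Subtype.ext (mul_inv_cancel₀ hf0)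
    · exact Subtype.ext (inv_mul_cancel₀ hf0)

variable (hL : ∀ y ∈ Fk, ∃ f : F, f ∈ expOv ε A ∧ expRes ε A f = y)
  (hsc : ∀ f : F, f ≠ 0 → ∃ c : Qb, c ≠ 0 ∧ f * (algebraMap Qb F c)⁻¹ ∈ expOv ε A ∧
    (f * (algebraMap Qb F c)⁻¹)⁻¹ ∈ expOv ε A)
  (hF : IsRRField Qb F) (hFk : IsRRField (IsLocalRing.ResidueField A) Fk)

/-- **The constant reduction attached to an expansion.** -/
def expValSetup : ValSetup Qb F (IsLocalRing.ResidueField A) Fk where
  A := A
  Ov := expVal hV
  res := IsLocalRing.residue A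
  ρ := expResTo hV Fk hU
  hF := hF
  hFk := hFk
  res_surj := IsLocalRing.residue_surjective
  ρ_surj := by
    rintro ⟨y, hy⟩
    obtain ⟨f, hf, hfy⟩ := hL y hy
    exact ⟨⟨f, hf⟩, Subtype.ext hfy⟩
  mem_Ov_iff := fun c => algebraMap_mem_expOv_iff ε A c
  ρ_algebraMap := by
    intro c hc hc'
    apply Subtype.ext
    rw [coe_expResTo]
    exact expRes_algebraMap ε A hc
  ρ_eq_zero_iff := expResTo_eq_zero_iff hV Fk hU
  scale := hsc

@[simp] theorem expValSetup_A : (expValSetup hV Fk hU hL hsc hF hFk).A = A := rfl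

theorem mem_expValSetup_Ov_iff (f : F) :
    f ∈ (expValSetup hV Fk hU hL hsc hF hFk).Ov ↔ f ∈ expOv ε A := Iff.rfl

theorem coe_expValSetup_red {f : F} (hf : f ∈ expOv ε A) :
    (((expValSetup hV Fk hU hL hsc hF hFk).red f : Fk) :
        LaurentSeries (IsLocalRing.ResidueField A)) = expRes ε A f := by
  unfold ValSetup.red
  rw [dif_pos (show f ∈ (expValSetup hV Fk hU hL hsc hF hFk).Ov from hf)]
  rfl

/-- the lattice property of the setup, from the lattice property on expansions. -/
theorem hasLattice_expValSetup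
    (hLat : ∀ W : Submodule Qb F, FiniteDimensional Qb W →
      ∃ (n : ℕ) (w : Fin n → F), (∀ i, w i ∈ W) ∧ (∀ i, w i ∈ expOv ε A) ∧
        Submodule.span Qb (Set.range w) = W ∧
        LinearIndependent (IsLocalRing.ResidueField A) (fun i => expRes ε A (w i))) :
    HasLattice (expValSetup hV Fk hU hL hsc hF hFk) := by
  intro W hW
  obtain ⟨n, w, hwW, hwO, hspan, hind⟩ := hLat W hW
  refine ⟨n, w, hwW, hwO, hspan, ?_⟩
  rw [Fintype.linearIndependent_iff] at hind ⊢
  intro g hg i
  apply hind g _ i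
  have h1 := congrArg (fun y : Fk => (y : LaurentSeries (IsLocalRing.ResidueField A))) hg
  simp only [AddSubmonoidClass.coe_finsetSum, ZeroMemClass.coe_zero] at h1
  rw [← h1]
  refine Finset.sum_congr rfl fun j _ => ?_
  rw [Fermat.Agent.GaussInt.coe_smul_subfield,
    coe_expValSetup_red hV Fk hU hL hsc hF hFk (hwO j), ← HahnSeries.C_mul_eq_smul,
    ModularCurve.algebraMap_laurentSeries_eq_single]
  rfl

end Generic

end Fermat.Agent.S36G
end
end MergeWrap_S36_Igusa_AsmSetup
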