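import Mathlib
import Fermat.Agent.MU.S36.Igusa.Defs
import Fermat.Agent.MU.S36.Igusa.AsmDefs
import Fermat.Agent.MU.Lib.GaussInt.ModularInst

section MergeWrap_S36_Igusa_Val -- from S36/Igusa/Val.lean
attribute [local instance 10000] SubalgebraClass.toAlgebra HahnSeries.powerSeriesAlgebra

set_option autoImplicit false
set_option synthInstance.maxHeartbeats 400000

noncomputable section

namespace Fermat.Agent.S36G

open ModularCurve AlgebraicCurve HahnSeries Fermat.Agent.GaussInt Fermat.Agent.Deuring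
  Fermat.Agent.Kronecker Fermat.Agent.RR

local notation "Qb" => AlgebraicClosure ℚ

/-! ### 1. The Gauss ring of `⊤` restricted to a Gauss field -/

section Top

variable {K : Type*} [Field K] {A : ValuationSubring K}

theorem isPres_top {F : IntermediateField K (LaurentSeries K)} {f : LaurentSeries K}
    {Y₁ Y₂ : LaurentSeries A} (h : IsPres A F f Y₁ Y₂) :
    IsPres A (⊤ : IntermediateField K (LaurentSeries K)) f Y₁ Y₂ :=
  ⟨IntermediateField.mem_top, IntermediateField.mem_top, h.prim, h.eq⟩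

theorem mem_gaussSub_top {F : IntermediateField K (LaurentSeries K)} {f : LaurentSeries K}
    (hf : f ∈ gaussSub A F) : f ∈ gaussSub A (⊤ : IntermediateField K (LaurentSeries K)) := by
  obtain ⟨Y₁, Y₂, h⟩ := hf
  exact ⟨Y₁, Y₂, isPres_top h⟩

theorem gaussResFun_top_eq {F : IntermediateField K (LaurentSeries K)} {f : LaurentSeries K}
    (hf : f ∈ gaussSub A F) :
    gaussResFun A (⊤ : IntermediateField K (LaurentSeries K)) f = gaussResFun A F f := by
  obtain ⟨Y₁, Y₂, h⟩ := hf
  rw [gaussResFun_eq h, gaussResFun_eq (isPres_top h)]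

variable [Algebra ℚ K] {F₀ : IntermediateField ℚ (LaurentSeries ℚ)} {ℓ : ℕ}

/-- `gaussSub A ⊤ ∩ L = gaussSub A L` for a Gauss field `L`. -/
theorem mem_gaussSub_of_mem_top (h : GaussHyp A F₀ ℓ) {f : LaurentSeries K}
    (hf : f ∈ laurentBaseChange K F₀)
    (hft : f ∈ gaussSub A (⊤ : IntermediateField K (LaurentSeries K))) :
    f ∈ gaussSub A (laurentBaseChange K F₀) := by
  by_cases hf0 : f = 0
  · rw [hf0]
    exact zero_mem _
  rcases mem_or_inv_mem_gaussSub h.isPrime h.liesOver h.isIntGen hf with h1 | h1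
  · exact h1
  by_cases hres : gaussResFun A (laurentBaseChange K F₀) f⁻¹ = 0
  · exfalso
    have h3 : gaussResFun A (⊤ : IntermediateField K (LaurentSeries K)) f⁻¹ = 0 := by
      rw [gaussResFun_top_eq h1, hres]
    have h4 : gaussRes A (⊤ : IntermediateField K (LaurentSeries K))
        (⟨f, hft⟩ * ⟨f⁻¹, mem_gaussSub_top h1⟩) = 1 := by
      have : (⟨f, hft⟩ * ⟨f⁻¹, mem_gaussSub_top h1⟩ :
          gaussSub A (⊤ : IntermediateField K (LaurentSeries K))) = 1 :=
        Subtype.ext (mul_inv_cancel₀ hf0)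
      rw [this, map_one]
    rw [map_mul] at h4
    have h5 : gaussRes A (⊤ : IntermediateField K (LaurentSeries K))
        ⟨f⁻¹, mem_gaussSub_top h1⟩ = 0 := h3
    rw [h5, mul_zero] at h4
    exact zero_ne_one h4
  · have := inv_mem_gaussSub h1 hres
    rwa [inv_inv] at this

theorem mem_gaussSub_top_iff (h : GaussHyp A F₀ ℓ) {f : LaurentSeries K}
    (hf : f ∈ laurentBaseChange K F₀) :
    f ∈ gaussSub A (⊤ : IntermediateField K (LaurentSeries K)) ↔
      f ∈ gaussSub A (laurentBaseChange K F₀) :=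
  ⟨mem_gaussSub_of_mem_top h hf, mem_gaussSub_top⟩

end Top

/-! ### 2. Pull-back of the Gauss valuation along an expansion with values in a Gauss field -/

section Pull

variable {F : Type*} [Field F] [Algebra Qb F] (ε : F →ₐ[Qb] LaurentSeries Qb)
  {A : ValuationSubring Qb} {F₀ : IntermediateField ℚ (LaurentSeries ℚ)} {ℓ : ℕ}

theorem expOv_injective : Function.Injective ε := ε.toRingHom.injective

/-- the expansion as a `ℚ̄`-linear map (for the module structure of Hahn series). -/
def expLin : F →ₗ[Qb] LaurentSeries Qb where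
  toFun := ε
  map_add' := map_add ε
  map_smul' c f := by
    show ε (c • f) = c • ε f
    rw [Algebra.smul_def, map_mul, AlgHom.commutes, algebraMap_mul_eq_smul]

@[simp] theorem expLin_apply (f : F) : expLin ε f = ε f := rfl

theorem expLin_injective : Function.Injective (expLin ε) := expOv_injective ε

/-- elements of `expOv` with nonzero residue are units. -/
theorem inv_mem_expOv_val {f : F} (hf : f ∈ expOv ε A) (hres : expRes ε A f ≠ 0) :
    f⁻¹ ∈ expOv ε A := by
  rw [mem_expOv_iff, map_inv₀]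
  exact inv_mem_gaussSub hf hres

section Range

variable (h : GaussHyp A F₀ ℓ) (hε : ∀ f : F, ε f ∈ laurentBaseChange Qb F₀)
include h hε

/-- `expOv ε A` is the pull-back of the Gauss ring of the Gauss field. -/
theorem mem_expOv_iff_of_range (f : F) :
    f ∈ expOv ε A ↔ ε f ∈ gaussSub A (laurentBaseChange Qb F₀) :=
  (mem_expOv_iff ε A f).trans (mem_gaussSub_top_iff h (hε f))

theorem expRes_eq_of_range {f : F} (hf : f ∈ expOv ε A) :
    expRes ε A f = gaussResFun A (laurentBaseChange Qb F₀) (ε f) :=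
  gaussResFun_top_eq ((mem_expOv_iff_of_range ε h hε f).mp hf)

/-- **VALUATION RING.** -/
theorem expOv_mem_or_inv_mem (f : F) : f ∈ expOv ε A ∨ f⁻¹ ∈ expOv ε A := by
  rcases mem_or_inv_mem_gaussSub h.isPrime h.liesOver h.isIntGen (hε f) with h1 | h1
  · exact Or.inl (mem_gaussSub_top h1)
  · right
    rw [mem_expOv_iff, map_inv₀]
    exact mem_gaussSub_top h1

/-- **SCALE** (value group `= v(ℚ̄)`), shape of `ValSetup.scale`. -/
theorem expOv_scale (f : F) (hf : f ≠ 0) :
    ∃ c : Qb, c ≠ 0 ∧ f * (algebraMap Qb F c)⁻¹ ∈ expOv ε A ∧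
      (f * (algebraMap Qb F c)⁻¹)⁻¹ ∈ expOv ε A := by
  have hεf : ε f ≠ 0 := fun h0 => hf (expOv_injective ε (h0.trans (map_zero ε).symm))
  obtain ⟨c, hc, hmem, hres⟩ :=
    exists_const_mul_mem_gaussSub h.isPrime h.liesOver h.isIntGen (hε f) hεf
  have key : ε (f * (algebraMap Qb F c⁻¹)⁻¹) =
      algebraMap Qb (LaurentSeries Qb) c * ε f := by
    rw [map_mul, map_inv₀, AlgHom.commutes, map_inv₀, inv_inv, mul_comm]
  have h1 : f * (algebraMap Qb F c⁻¹)⁻¹ ∈ expOv ε A := by
    rw [mem_expOv_iff, key]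
    exact mem_gaussSub_top hmem
  refine ⟨c⁻¹, inv_ne_zero hc, h1, inv_mem_expOv_val ε h1 ?_⟩
  unfold expRes
  rw [key, gaussResFun_top_eq hmem]
  exact hres

/-- **LATTICE** (orthonormal bases): every finite-dimensional `ℚ̄`-subspace of `F` is spanned by
elements of `expOv ε A` whose residues are linearly independent over the residue field. -/
theorem expOv_exists_orthonormal (W : Submodule Qb F) (hWfd : FiniteDimensional Qb W) :
    ∃ (n : ℕ) (w : Fin n → F),
      (∀ i, w i ∈ W) ∧ (∀ i, w i ∈ expOv ε A) ∧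
      Submodule.span Qb (Set.range w) = W ∧
      (∀ c : Fin n → IsLocalRing.ResidueField A,
        ∑ i, algebraMap (IsLocalRing.ResidueField A)
            (LaurentSeries (IsLocalRing.ResidueField A)) (c i) * expRes ε A (w i) = 0 →
          ∀ i, c i = 0) := by
  classical
  have hfg : W.FG := (Submodule.fg_iff_finiteDimensional W).mpr hWfd
  have hfg' : (W.map (expLin ε)).FG := hfg.map _
  have hW' : ∀ x ∈ W.map (expLin ε), x ∈ laurentBaseChange Qb F₀ := by
    rintro _ ⟨f, -, rfl⟩
    exact hε f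
  obtain ⟨s, w, hwW, hwO, hspan, hind⟩ := exists_orthonormal_series h _ hfg' hW'
  have hch : ∀ x : s, ∃ f : F, f ∈ W ∧ ε f = w x := by
    intro x
    obtain ⟨f, hf, hfw⟩ := hwW x x.2
    exact ⟨f, hf, hfw⟩
  choose wS hwS using hch
  set e := s.equivFin with he
  have hmemO : ∀ i, wS (e.symm i) ∈ expOv ε A := fun i => by
    rw [mem_expOv_iff_of_range ε h hε, (hwS _).2]
    exact hwO _ (e.symm i).2
  refine ⟨s.card, fun i => wS (e.symm i), fun i => (hwS _).1, hmemO, ?_, ?_⟩
  · apply Submodule.map_injective_of_injective (expLin_injective ε)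
    rw [Submodule.map_span, ← hspan]
    congr 1
    ext x
    constructor
    · rintro ⟨_, ⟨i, rfl⟩, rfl⟩
      exact ⟨e.symm i, (e.symm i).2, ((hwS _).2).symm⟩
    · rintro ⟨m, hm, rfl⟩
      refine ⟨wS ⟨m, hm⟩, ⟨e ⟨m, hm⟩, ?_⟩, (hwS _).2⟩
      simp
  · intro c hc i
    set c' : ℤ → IsLocalRing.ResidueField A :=
      fun m => if hm : m ∈ s then c (e ⟨m, hm⟩) else 0 with hc'
    have hsum : ∑ m ∈ s, algebraMap (IsLocalRing.ResidueField A)
        (LaurentSeries (IsLocalRing.ResidueField A)) (c' m) *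
          gaussResFun A (laurentBaseChange Qb F₀) (w m) = 0 := by
      rw [← hc, ← Finset.sum_coe_sort s, ← Equiv.sum_comp e.symm]
      refine Finset.sum_congr rfl fun j _ => ?_
      have h1 : c' (e.symm j : ℤ) = c j := by
        simp only [hc']
        rw [dif_pos (e.symm j).2]
        simp
      rw [h1, expRes_eq_of_range ε h hε (hmemO j), (hwS _).2]
    have := hind c' hsum (e.symm i) (e.symm i).2
    simp only [hc'] at this
    rw [dif_pos (e.symm i).2] at this
    simpa using this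

end Range

end Pull

/-! ### 3. Dissections -/

section Dissect

variable {R : Type*} [CommRing R]

/-- the `r`-th dissection modulo `q`: the coefficients with `n ≡ r mod q`. -/
def dissect (q r : ℕ) (y : LaurentSeries R) : LaurentSeries R where
  coeff n := if n % (q : ℤ) = (r : ℤ) then y.coeff n else 0
  isPWO_support' := y.isPWO_support.mono (fun n hn => by
    simp only [Function.mem_support, ne_eq] at hn
    rw [HahnSeries.mem_support]
    intro h0
    exact hn (by rw [h0, ite_self]))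

theorem dissect_coeff (q r : ℕ) (y : LaurentSeries R) (n : ℤ) :
    (dissect q r y).coeff n = if n % (q : ℤ) = (r : ℤ) then y.coeff n else 0 := rfl

theorem coeffMap_dissect {S : Type*} [CommRing S] (f : R →+* S) (q r : ℕ)
    (y : LaurentSeries R) : coeffMap f (dissect q r y) = dissect q r (coeffMap f y) := by
  ext n
  rw [coeffMap_coeff, dissect_coeff, dissect_coeff, coeffMap_coeff]
  split_ifs
  · rfl
  · exact map_zero f

/-- DISSECTION: `y (z q) = Σ_{r < q} z ^ r • y^{(r)}` for `z ^ q = 1`. -/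
theorem scaleL_eq_sum_dissect (q : ℕ) (hq : 0 < q) (z : Rˣ) (hz : z ^ q = 1)
    (y : LaurentSeries R) :
    scaleL z y = ∑ r ∈ Finset.range q, ((z ^ r : Rˣ) : R) • dissect q r y := by
  ext n
  rw [scaleL_coeff, HahnSeries.coeff_sum]
  have hq' : (0 : ℤ) < q := by exact_mod_cast hq
  have h0 : 0 ≤ n % (q : ℤ) := Int.emod_nonneg n hq'.ne'
  have h1 : n % (q : ℤ) < q := Int.emod_lt_of_pos n hq'
  obtain ⟨r₀, hr₀⟩ : ∃ r₀ : ℕ, (r₀ : ℤ) = n % (q : ℤ) := ⟨(n % (q : ℤ)).toNat,
    Int.toNat_of_nonneg h0⟩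
  have hr₀q : r₀ < q := by
    have : (r₀ : ℤ) < q := hr₀ ▸ h1
    exact_mod_cast this
  rw [Finset.sum_eq_single_of_mem r₀ (Finset.mem_range.mpr hr₀q)]
  · rw [HahnSeries.coeff_smul, dissect_coeff, if_pos hr₀.symm, smul_eq_mul]
    have hz' : z ^ (q : ℤ) = 1 := by rw [zpow_natCast, hz]
    rw [zpow_eq_zpow_emod n hz', ← hr₀, zpow_natCast]
  · intro r _ hr
    rw [HahnSeries.coeff_smul, dissect_coeff, if_neg, smul_zero]
    intro h2
    apply hr
    have : (r : ℤ) = r₀ := by rw [hr₀, h2]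
    exact_mod_cast this

theorem coeffMap_qExpand_ig {S : Type*} [CommRing S] (f : R →+* S) (n : ℕ) [NeZero n]
    (x : LaurentSeries R) : coeffMap f (qExpand R n x) = qExpand S n (coeffMap f x) := by
  ext k
  by_cases hk : (n : ℤ) ∣ k
  · obtain ⟨m, rfl⟩ := hk
    rw [coeffMap_coeff, qExpand_coeff_mul, qExpand_coeff_mul, coeffMap_coeff]
  · rw [coeffMap_coeff, qExpand_coeff_of_not_dvd n _ hk, qExpand_coeff_of_not_dvd n _ hk,
      map_zero]

end Dissect

/-! ### 4. The universal Gauss field -/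

section Universal

variable (A : ValuationSubring Qb)

/-- the field generated over `ℚ` by ALL rational series integral at `A`. -/
def intField : IntermediateField ℚ (LaurentSeries ℚ) :=
  IntermediateField.adjoin ℚ {g | IsIntQ A g}

/-- the universal Gauss field `ℚ̄ · intField A`. -/
def midField : IntermediateField Qb (LaurentSeries Qb) := laurentBaseChange Qb (intField A)

variable {A}

theorem mem_intField_of_isIntQ {g : LaurentSeries ℚ} (hg : IsIntQ A g) : g ∈ intField A :=
  IntermediateField.subset_adjoin ℚ _ hg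

theorem gaussHyp_intField {ℓ : ℕ} (hℓ : ℓ.Prime) (hA : A.LiesOverPrime ℓ) :
    GaussHyp A (intField A) ℓ :=
  ⟨hℓ, hA, isIntGen_adjoin _ fun _ hg => hg⟩

theorem coeffEmb_mem_midField {g : LaurentSeries ℚ} (hg : IsIntQ A g) :
    coeffEmb Qb g ∈ midField A :=
  coeffEmb_mem_laurentBaseChange Qb (mem_intField_of_isIntQ hg)

theorem isIntQ_dissect (q r : ℕ) {g : LaurentSeries ℚ} (hg : IsIntQ A g) :
    IsIntQ A (dissect q r g) := by
  intro n
  rw [dissect_coeff]
  split_ifs
  · exact hg n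
  · rw [map_zero]
    exact A.zero_mem

/-- `y (z q)` lies in the universal Gauss field for `y` rational integral, `z ^ q = 1`. -/
theorem scaleL_coeffEmb_mem_midField (q : ℕ) (hq : 0 < q) (z : Qbˣ) (hz : z ^ q = 1)
    {g : LaurentSeries ℚ} (hg : IsIntQ A g) : scaleL z (coeffEmb Qb g) ∈ midField A := by
  rw [scaleL_eq_sum_dissect q hq z hz]
  refine sum_mem fun r _ => ?_
  rw [← algebraMap_mul_eq_smul]
  refine mul_mem ((midField A).algebraMap_mem _) ?_
  have h1 : dissect q r (coeffEmb Qb g) = coeffEmb Qb (dissect q r g) :=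
    (coeffMap_dissect _ q r g).symm
  rw [h1]
  exact coeffEmb_mem_midField (isIntQ_dissect q r hg)

end Universal

/-! ### 5. The middle expansions -/

section Mid

variable {M₀ q : ℕ}

theorem dvd_cases_ig (hq : q.Prime) {d : ℕ} (hd : d ∣ M₀ * q * q) :
    d ∣ M₀ * q ∨ ∃ d' : ℕ, d' ∣ M₀ ∧ d = q * q * d' := by
  obtain ⟨y, t, hy, ht, rfl⟩ := (Nat.dvd_mul).mp hd
  rcases (Nat.dvd_prime hq).mp ht with rfl | rfl
  · left
    rw [mul_one]
    exact hy
  · obtain ⟨y₁, t₁, hy₁, ht₁, rfl⟩ := (Nat.dvd_mul).mp hy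
    rcases (Nat.dvd_prime hq).mp ht₁ with rfl | rfl
    · left
      rw [mul_one]
      exact mul_dvd_mul_right hy₁ _
    · right
      exact ⟨y₁, hy₁, by ring⟩

variable [NeZero M₀] [NeZero q]

theorem coeffEmb_qExpand_ig (n : ℕ) [NeZero n] (x : LaurentSeries ℚ) :
    coeffEmb Qb (qExpand ℚ n x) = qExpand Qb n (coeffEmb Qb x) :=
  coeffMap_qExpand_ig _ n x

/-- the expansion of a rational generator `j (q ^ d)`, `d ∣ M₀ q q`. -/
theorem midExp_gen_mem (hq : q.Prime) {z : Qbˣ} (hz : z ^ q = 1)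
    {ε : ↥(modularFunctionFieldBar (M₀ * q * q)) →ₐ[Qb] LaurentSeries Qb}
    (hε : IsMidExp M₀ q z ε) (A : ValuationSubring Qb) (d : ℕ) [NeZero d]
    (hd : d ∣ M₀ * q * q)
    (hmem : coeffEmb Qb (qExpand ℚ d jq) ∈ modularFunctionFieldBar (M₀ * q * q)) :
    ε ⟨coeffEmb Qb (qExpand ℚ d jq), hmem⟩ ∈ midField A := by
  rcases dvd_cases_ig hq hd with h1 | ⟨d', hd', hdd⟩
  · have hx₁ : coeffEmb Qb (qExpand ℚ d jq) ∈ modularFunctionFieldBar (M₀ * q) :=
      coeffEmb_mem_laurentBaseChange Qb (jqd_mem_full (M₀ * q) h1)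
    have e1 : heckeAlphaBar Qb (M₀ * q) q ⟨_, hx₁⟩ =
        (⟨coeffEmb Qb (qExpand ℚ d jq), hmem⟩ : ↥(modularFunctionFieldBar (M₀ * q * q))) :=
      Subtype.ext (coe_heckeAlphaBar _ _ _)
    rw [← e1, hε.alpha]
    exact coeffEmb_mem_midField (isIntQ_qExpand d isIntQ_jq)
  · have hd'0 : NeZero d' := ⟨fun h0 => NeZero.ne M₀ (by
      rw [h0] at hd'
      exact Nat.eq_zero_of_zero_dvd hd')⟩
    have hy₀ : coeffEmb Qb (qExpand ℚ d' jq) ∈ modularFunctionFieldBar M₀ :=
      coeffEmb_mem_laurentBaseChange Qb (jqd_mem_full M₀ hd')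
    have e1 : heckeBetaBar Qb (M₀ * q) q (heckeBetaBar Qb M₀ q ⟨_, hy₀⟩) =
        (⟨coeffEmb Qb (qExpand ℚ d jq), hmem⟩ : ↥(modularFunctionFieldBar (M₀ * q * q))) := by
      apply Subtype.ext
      rw [coe_heckeBetaBar, coe_heckeBetaBar]
      show qExpand Qb q (qExpand Qb q (coeffEmb Qb (qExpand ℚ d' jq))) =
        coeffEmb Qb (qExpand ℚ d jq)
      rw [coeffEmb_qExpand_ig d', coeffEmb_qExpand_ig d, qExpand_qExpand, qExpand_qExpand]
      exact (qExpand_congr (R := Qb) hdd _).symm
    rw [← e1, hε.beta2]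
    exact scaleL_coeffEmb_mem_midField q hq.pos z hz (isIntQ_qExpand d' isIntQ_jq)

/-- **the range of a middle expansion lies in the universal Gauss field.** -/
theorem midExp_range (hq : q.Prime) {z : Qbˣ} (hz : z ^ q = 1)
    {ε : ↥(modularFunctionFieldBar (M₀ * q * q)) →ₐ[Qb] LaurentSeries Qb}
    (hε : IsMidExp M₀ q z ε) (A : ValuationSubring Qb)
    (f : ↥(modularFunctionFieldBar (M₀ * q * q))) : ε f ∈ midField A := by
  have h1 := Fermat.Agent.AtkinLehner.modularFunctionFieldBar_eq_adjoin (M₀ * q * q)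
  have hle : IntermediateField.adjoin Qb (Fermat.Agent.AtkinLehner.serGens (M₀ * q * q)) ≤
      ((midField A).comap ε).map (IntermediateField.val _) := by
    rw [IntermediateField.adjoin_le_iff]
    rintro _ ⟨d, hne, hdvd, rfl⟩
    have hmem : coeffEmb Qb (qExpand ℚ d jq) ∈ modularFunctionFieldBar (M₀ * q * q) :=
      coeffEmb_mem_laurentBaseChange Qb (jqd_mem_full (M₀ * q * q) hdvd)
    refine (IntermediateField.mem_map _).mpr ⟨⟨coeffEmb Qb (qExpand ℚ d jq), hmem⟩, ?_, ?_⟩
    · exact midExp_gen_mem hq hz hε A d hdvd hmem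
    · exact Fermat.Agent.AtkinLehner.coeffEmb_qExpand_jq d
  obtain ⟨f', hf', hff'⟩ := (IntermediateField.mem_map _).mp (hle (h1.le f.2))
  have e : f' = f := Subtype.ext hff'
  rw [← e]
  exact hf'

/-! ### 6. The statements of the seat IG-VAL -/

/-- **(V1)** `expOv ε A` is a valuation ring. -/
theorem igValRing (M₀ q : ℕ) [NeZero M₀] [NeZero q] : IgValRing M₀ q := by
  intro hq _ A hA z ε hz hε f
  exact expOv_mem_or_inv_mem ε (gaussHyp_intField hq hA)
    (midExp_range hq hz.pow_eq_one hε A) f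

/-- **(V2)** the value group of `expOv ε A` is the value group of `A`. -/
theorem igScale (M₀ q : ℕ) [NeZero M₀] [NeZero q] : IgScale M₀ q := by
  intro hq _ A hA z ε hz hε f hf
  exact expOv_scale ε (gaussHyp_intField hq hA) (midExp_range hq hz.pow_eq_one hε A) f hf

/-- **(V3)** the lattice property of `expOv ε A`. -/
theorem igLattice (M₀ q : ℕ) [NeZero M₀] [NeZero q] : IgLattice M₀ q := by
  intro hq _ A hA z ε hz hε W hW
  obtain ⟨n, w, hwW, hwO, hspan, hind⟩ := expOv_exists_orthonormal ε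
    (gaussHyp_intField hq hA) (midExp_range hq hz.pow_eq_one hε A) W hW
  refine ⟨n, w, hwW, hwO, hspan, ?_⟩
  rw [Fintype.linearIndependent_iff]
  intro g hg i
  apply hind g _ i
  rw [← hg]
  refine Finset.sum_congr rfl fun j _ => ?_
  rw [algebraMap_mul_eq_smul]

end Mid

end Fermat.Agent.S36G
end
end MergeWrap_S36_Igusa_Val
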