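import Fermat.Agent.MU.S36.Igusa.Defs
import Fermat.Agent.MU.Lib.BadRed.Mod.SSCount
import Fermat.Agent.MU.Lib.IgusaDeg.UMem

section MergeWrap_S36_Igusa_Kummer -- from S36/Igusa/Kummer.lean

set_option autoImplicit false

noncomputable section

namespace Fermat.Agent.S36G

open ModularCurve Fermat.Agent.IgusaDeg
open Fermat.Agent.SwD (zmap evK e2Z e4Z e6Z deltaZ thetaOp)

/-! ### The Eisenstein series as Laurent series over a commutative ring -/

section Formal

variable (R : Type*) [CommRing R]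

/-- `E₂` as a Laurent series over `R`. -/
def igkE2 : LaurentSeries R := HahnSeries.ofPowerSeries ℤ R (zmap R e2Z)

/-- `E₄` as a Laurent series over `R`. -/
def igkE4 : LaurentSeries R := HahnSeries.ofPowerSeries ℤ R (zmap R e4Z)

/-- `E₆` as a Laurent series over `R`. -/
def igkE6 : LaurentSeries R := HahnSeries.ofPowerSeries ℤ R (zmap R e6Z)

/-- `Δ` as a Laurent series over `R`. -/
def igkDelta : LaurentSeries R := HahnSeries.ofPowerSeries ℤ R (zmap R deltaZ)

/-- `Δ⁻¹` as a Laurent series over `R`. -/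
def igkDeltaInv : LaurentSeries R :=
  HahnSeries.single (-1 : ℤ) (1 : R) * HahnSeries.ofPowerSeries ℤ R (zmap R dedekindEtaUnitInv)

theorem igk_psTheta_eq (P : PowerSeries R) : psTheta P = thetaOp P := rfl

theorem igk_single_mul_single :
    (HahnSeries.single (-1 : ℤ) (1 : R)) * HahnSeries.single (1 : ℤ) (1 : R) = 1 := by
  rw [HahnSeries.single_mul_single]
  simp

theorem igk_eta_mul_inv :
    HahnSeries.ofPowerSeries ℤ R (zmap R dedekindEtaUnit) *
      HahnSeries.ofPowerSeries ℤ R (zmap R dedekindEtaUnitInv) = 1 := by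
  rw [← map_mul, ← map_mul, dedekindEtaUnit_mul_inv, map_one, map_one]

theorem igkDelta_eq : igkDelta R = HahnSeries.single (1 : ℤ) (1 : R) *
    HahnSeries.ofPowerSeries ℤ R (zmap R dedekindEtaUnit) := by
  rw [igkDelta, deltaZ, map_mul, map_mul, PowerSeries.map_X, HahnSeries.ofPowerSeries_X]

theorem igkDelta_mul_inv : igkDelta R * igkDeltaInv R = 1 := by
  rw [igkDelta_eq, igkDeltaInv]
  linear_combination (HahnSeries.ofPowerSeries ℤ R (zmap R dedekindEtaUnit) *
      HahnSeries.ofPowerSeries ℤ R (zmap R dedekindEtaUnitInv)) * igk_single_mul_single R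
    + igk_eta_mul_inv R

/-- `j Δ = E₄³`. -/
theorem igk_j_mul_delta : jqModC R * igkDelta R = igkE4 R ^ 3 := by
  rw [igkDelta_eq, jqModC, jNum, igkE4, map_mul, map_mul, map_pow, map_pow, e4Z]
  linear_combination (HahnSeries.ofPowerSeries ℤ R (zmap R eisenstein4) ^ 3 *
      HahnSeries.ofPowerSeries ℤ R (zmap R dedekindEtaUnit) *
      HahnSeries.ofPowerSeries ℤ R (zmap R dedekindEtaUnitInv)) * igk_single_mul_single R
    + (HahnSeries.ofPowerSeries ℤ R (zmap R eisenstein4) ^ 3) * igk_eta_mul_inv R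

/-- Ramanujan: `3 θ E₄ = E₂ E₄ - E₆`. -/
theorem igk_ram4 : 3 * theta R (igkE4 R) = igkE2 R * igkE4 R - igkE6 R := by
  have h := congrArg (HahnSeries.ofPowerSeries ℤ R) (Fermat.Agent.SwD.ram4_map (A := R))
  rw [map_mul, map_sub, map_mul, map_ofNat] at h
  rw [igkE4, theta_ofPowerSeries, igk_psTheta_eq]
  exact h

/-- Ramanujan: `2 θ E₆ = E₂ E₆ - E₄²`. -/
theorem igk_ram6 : 2 * theta R (igkE6 R) = igkE2 R * igkE6 R - igkE4 R ^ 2 := by
  have h := congrArg (HahnSeries.ofPowerSeries ℤ R) (Fermat.Agent.SwD.ram6_map (A := R))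
  rw [map_mul, map_sub, map_mul, map_pow, map_ofNat] at h
  rw [igkE6, theta_ofPowerSeries, igk_psTheta_eq]
  exact h

/-- `1728 Δ = E₄³ - E₆²`. -/
theorem igk_delta : 1728 * igkDelta R = igkE4 R ^ 3 - igkE6 R ^ 2 := by
  have h := congrArg (HahnSeries.ofPowerSeries ℤ R) (Fermat.Agent.SwD.delta_map (A := R))
  rw [map_mul, map_sub, map_pow, map_pow, map_ofNat] at h
  exact h

theorem igk_theta_ofNat_mul (n : ℕ) (x : LaurentSeries R) :
    theta R ((n : LaurentSeries R) * x) = (n : LaurentSeries R) * theta R x := by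
  rw [← nsmul_eq_mul, map_nsmul, nsmul_eq_mul]

/-- `1728 θ Δ = 1728 E₂ Δ`. -/
theorem igk_theta_delta :
    1728 * theta R (igkDelta R) = 1728 * (igkE2 R * igkDelta R) := by
  have h1 : theta R ((1728 : LaurentSeries R) * igkDelta R) = 1728 * theta R (igkDelta R) := by
    have := igk_theta_ofNat_mul R 1728 (igkDelta R)
    simpa using this
  rw [← h1, igk_delta, map_sub, theta_pow, theta_pow]
  have h4 := igk_ram4 R
  have h6 := igk_ram6 R
  have hd := igk_delta R
  push_cast
  simp only [pow_one]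
  linear_combination (igkE4 R ^ 2) * h4 - (igkE6 R) * h6 - (igkE2 R) * hd

/-- `1728 (θ j · E₄ + j · E₆) = 0` over every commutative ring. -/
theorem igk_theta_j_1728 :
    1728 * (theta R (jqModC R) * igkE4 R + jqModC R * igkE6 R) = 0 := by
  have h1 := congrArg (theta R) (igk_j_mul_delta R)
  rw [theta_mul, theta_pow] at h1
  push_cast at h1
  have h4 := igk_ram4 R
  have hD := igk_theta_delta R
  have hj := igk_j_mul_delta R
  have hinv := igkDelta_mul_inv R
  -- `1728 Δ θj = - 1728 E₄² E₆`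
  have h2 : 1728 * (igkDelta R * theta R (jqModC R)) = -(1728 * (igkE4 R ^ 2 * igkE6 R)) := by
    linear_combination (1728 : LaurentSeries R) * h1 + (1728 * igkE4 R ^ 2) * h4
      - (jqModC R) * hD - (1728 * igkE2 R) * hj
  linear_combination (igkDeltaInv R * igkE4 R) * h2
    - (1728 * theta R (jqModC R) * igkE4 R + 1728 * jqModC R * igkE6 R) * hinv
    + (1728 * igkE6 R * igkDeltaInv R) * hj

end Formal

/-- **`θ j · E₄ = - j · E₆`** in `ℤ((q))`. -/
theorem igk_theta_j_int :
    theta ℤ (jqModC ℤ) * igkE4 ℤ = -(jqModC ℤ * igkE6 ℤ) := by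
  have h := igk_theta_j_1728 ℤ
  have h1728 : (1728 : LaurentSeries ℤ) ≠ 0 := by
    intro h0
    have e : (1728 : LaurentSeries ℤ) = HahnSeries.C (1728 : ℤ) :=
      (map_ofNat (HahnSeries.C (Γ := ℤ) (R := ℤ)) 1728).symm
    rw [e] at h0
    have := (map_eq_zero_iff (HahnSeries.C (Γ := ℤ) (R := ℤ)) HahnSeries.C_injective).mp h0
    norm_num at this
  rcases mul_eq_zero.mp h with h' | h'
  · exact absurd h' h1728
  · exact eq_neg_of_add_eq_zero_left h'

/-! ### Change of coefficients -/

section Transfer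

variable (R : Type*) [CommRing R]

theorem igk_coeffMap_E4 : coeffMap (Int.castRingHom R) (igkE4 ℤ) = igkE4 R := by
  rw [igkE4, igkE4, coeffMap_ofPowerSeries, Fermat.Agent.SwD.map_zmap]

theorem igk_coeffMap_E6 : coeffMap (Int.castRingHom R) (igkE6 ℤ) = igkE6 R := by
  rw [igkE6, igkE6, coeffMap_ofPowerSeries, Fermat.Agent.SwD.map_zmap]

/-- **`θ j · E₄ = - j · E₆`** over every commutative ring. -/
theorem igk_theta_j : theta R (jqModC R) * igkE4 R = -(jqModC R * igkE6 R) := by
  have h := congrArg (coeffMap (Int.castRingHom R)) igk_theta_j_int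
  rwa [map_mul, map_neg, map_mul, coeffMap_theta, coeffMap_jqModC, igk_coeffMap_E4,
    igk_coeffMap_E6] at h

theorem igkE4_eq_one (h : (240 : R) = 0) : igkE4 R = 1 := by
  have h1 : zmap R e4Z = 1 := by
    ext n
    rw [PowerSeries.coeff_map, e4Z, eisenstein4, PowerSeries.coeff_mk, PowerSeries.coeff_one]
    split_ifs with hn
    · simp
    · rw [map_mul, map_ofNat, h, zero_mul]
  rw [igkE4, h1, map_one]

theorem igkE6_eq_one (h : (504 : R) = 0) : igkE6 R = 1 := by
  have h1 : zmap R e6Z = 1 := by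
    ext n
    rw [PowerSeries.coeff_map, e6Z, PowerSeries.coeff_mk, PowerSeries.coeff_one]
    split_ifs with hn
    · simp
    · rw [map_mul, map_neg, map_ofNat, h, neg_zero, zero_mul]
  rw [igkE6, h1, map_one]

/-- `θ j̄ = - j̄` in characteristic `2` and `3`. -/
theorem igk_theta_j_small (h : (6 : R) = 0) : theta R (jqModC R) = -jqModC R := by
  have h240 : (240 : R) = 0 := by
    have : (240 : R) = 6 * 40 := by norm_num
    rw [this, h, zero_mul]
  have h504 : (504 : R) = 0 := by
    have : (504 : R) = 6 * 84 := by norm_num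
    rw [this, h, zero_mul]
  have := igk_theta_j R
  rwa [igkE4_eq_one R h240, igkE6_eq_one R h504, mul_one, mul_one] at this

end Transfer

/-! ### Characteristic `≥ 5`: the Hasse invariant -/

section Large

open MvPolynomial Fermat.Agent.S16SwD Fermat.Agent.BadRed

variable (k : Type) [Field k]

theorem igkE4_ne_zero : igkE4 k ≠ 0 := by
  intro h
  have h1 : zmap k e4Z = 0 := by
    apply HahnSeries.ofPowerSeries_injective (Γ := ℤ) (R := k)
    rw [map_zero]
    exact h
  have h2 := congrArg (PowerSeries.constantCoeff (R := k)) h1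
  rw [Fermat.Agent.SwD.constantCoeff_zmap, Fermat.Agent.SwD.constantCoeff_e4Z, map_zero] at h2
  simp at h2

theorem igkE6_ne_zero : igkE6 k ≠ 0 := by
  intro h
  have h1 : zmap k e6Z = 0 := by
    apply HahnSeries.ofPowerSeries_injective (Γ := ℤ) (R := k)
    rw [map_zero]
    exact h
  have h2 := congrArg (PowerSeries.constantCoeff (R := k)) h1
  rw [Fermat.Agent.SwD.constantCoeff_zmap, Fermat.Agent.SwD.constantCoeff_e6Z, map_zero] at h2
  simp at h2

theorem igk_aeval_mem (M₀ : ℕ) (P : Polynomial k) :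
    Polynomial.aeval (jqModC k) P ∈ modularFunctionFieldFullC k M₀ := by
  have h := Polynomial.aeval_subalgebra_coe P (modularFunctionFieldFullC k M₀).toSubalgebra
    ⟨jqModC k, jqModC_mem_full k M₀⟩
  rw [← h]
  exact Subtype.property _

/-- the Kummer relation in characteristic `q ≥ 5`. -/
theorem igk_large (q : ℕ) [hq : Fact q.Prime] [CharP k q] (h5 : 5 ≤ q) (M₀ : ℕ) :
    theta k (jqModC k) ^ ((q - 1) / 2) ∈ modularFunctionFieldFullC k M₀ := by
  have hodd : Odd q := hq.out.odd_of_ne_two (by omega)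
  set d : ℕ := (q - 1) / 2 with hd
  have hqd : q - 1 = 2 * d := by
    obtain ⟨m, hm⟩ := hodd
    omega
  have hq1 : 1 ≤ q := hq.out.one_le
  obtain ⟨A, hA, hA1⟩ := exists_hasse k q h5
  have h1728 : (1728 : k) ≠ 0 := Fermat.Agent.SwD.ne_zero_1728 q h5
  have hN : IsWeightedHomogeneous wt (X 1 ^ (2 * d) : MvPolynomial (Fin 2) k) (12 * d) := by
    have h := (isWH_X1 (κ := k)).pow (2 * d)
    have e : (2 * d) • 6 = 12 * d := by simp; omega
    rwa [e] at h
  have hD : IsWeightedHomogeneous wt (X 1 ^ d * X 0 ^ d * A : MvPolynomial (Fin 2) k)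
      (12 * d) := by
    have h := (((isWH_X1 (κ := k)).pow d).mul ((isWH_X0 (κ := k)).pow d)).mul hA
    have e : d • 6 + d • 4 + (q - 1) = 12 * d := by simp; omega
    rwa [e] at h
  obtain ⟨PN, hPN, hNe⟩ := exists_ssHom_eq h1728 d _ hN
  obtain ⟨PD, hPD, hDe⟩ := exists_ssHom_eq h1728 d _ hD
  have eN : igkE6 k ^ (2 * d) = ssD k ^ d * Polynomial.aeval (jqModC k) PN := by
    rw [← ofPS_evK_ssHom k hPN, ← hNe, map_pow, Fermat.Agent.SwD.evK_X1, map_pow]
    rfl
  have eD : igkE6 k ^ d * igkE4 k ^ d = ssD k ^ d * Polynomial.aeval (jqModC k) PD := by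
    rw [← ofPS_evK_ssHom k hPD, ← hDe]
    simp only [map_mul, map_pow, Fermat.Agent.SwD.evK_X1, Fermat.Agent.SwD.evK_X0, hA1, mul_one]
    rfl
  have hssD : ssD k ≠ 0 := by
    intro h0
    have h := ssFun_mul_ssD_pow k q hq1
    rw [h0, zero_pow (by omega), mul_zero] at h
    have h' := (map_eq_zero_iff (HahnSeries.C (Γ := ℤ) (R := k)) HahnSeries.C_injective).mp h.symm
    exact pow_ne_zero _ h1728 h'
  have hssDd : ssD k ^ d ≠ 0 := pow_ne_zero _ hssD
  have hPD0 : Polynomial.aeval (jqModC k) PD ≠ 0 := by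
    intro h0
    rw [h0, mul_zero] at eD
    rcases mul_eq_zero.mp eD with h | h
    · exact pow_ne_zero d (igkE6_ne_zero k) h
    · exact pow_ne_zero d (igkE4_ne_zero k) h
  have hθ := igk_theta_j k
  have hθd : theta k (jqModC k) ^ d * igkE4 k ^ d = (-1) ^ d * (jqModC k ^ d * igkE6 k ^ d) := by
    rw [← mul_pow, hθ, neg_pow, mul_pow]
  have hkey : theta k (jqModC k) ^ d * Polynomial.aeval (jqModC k) PD =
      (-1) ^ d * jqModC k ^ d * Polynomial.aeval (jqModC k) PN := by
    apply mul_left_cancel₀ hssDd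
    have e2 : igkE6 k ^ (2 * d) = igkE6 k ^ d * igkE6 k ^ d := by
      rw [two_mul, pow_add]
    rw [e2] at eN
    linear_combination (theta k (jqModC k) ^ d) * (-eD) + (igkE6 k ^ d) * hθd
      + ((-1) ^ d * jqModC k ^ d) * eN
  have hfin : theta k (jqModC k) ^ d =
      (-1) ^ d * jqModC k ^ d * Polynomial.aeval (jqModC k) PN /
        Polynomial.aeval (jqModC k) PD := by
    rw [eq_div_iff hPD0]
    exact hkey
  rw [hfin]
  have hj := jqModC_mem_full k M₀
  refine div_mem (mul_mem (mul_mem ?_ (pow_mem hj d)) (igk_aeval_mem k M₀ PN))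
    (igk_aeval_mem k M₀ PD)
  exact pow_mem (neg_mem (one_mem _)) d

end Large

/-! ### The statement -/

/-- **(IG2') the Kummer relation** `(θ j̄) ^ midDeg q ∈ k(Z)`. -/
theorem igKummer (M₀ q : ℕ) : IgKummer M₀ q := by
  intro hq k _ _
  have : Fact q.Prime := ⟨hq⟩
  rcases Nat.lt_or_ge q 5 with hlt | h5
  · -- `q = 2` or `q = 3`
    have h23 : q = 2 ∨ q = 3 := by
      have h2 := hq.two_le
      interval_cases q
      · exact Or.inl rfl
      · exact Or.inr rfl
      · exact absurd hq (by decide)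
    have h6 : (6 : k) = 0 := by
      have : ((6 : ℕ) : k) = 0 := by
        rw [CharP.cast_eq_zero_iff k q]
        rcases h23 with rfl | rfl
        · decide
        · decide
      exact_mod_cast this
    have hmid : midDeg q = 1 := by
      rcases h23 with rfl | rfl
      · decide
      · decide
    rw [hmid, pow_one, igk_theta_j_small k h6]
    exact neg_mem (jqModC_mem_full k M₀)
  · have hmid : midDeg q = (q - 1) / 2 := by
      unfold midDeg midCard
      rw [if_neg (by omega)]
    rw [hmid]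
    exact igk_large k q h5 M₀

end Fermat.Agent.S36G
end
end MergeWrap_S36_Igusa_Kummer
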