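import Mathlib
import Fermat.Agent.MU.Lib.BadRed.TwoExtModular
import Fermat.Agent.S36.Norm.Multi
import Fermat.Agent.MU.S36.Igusa.Defs
import Fermat.Agent.MU.Lib.BadRed.Mod.ValInf
import Fermat.Agent.MU.Lib.Kronecker.KroneckerAux
import Fermat.Agent.MU.S36.Igusa.AsmDefs
import Fermat.Agent.MU.E.Desc.Comm.Degree
import Fermat.Agent.MU.R38.P.Final
import Fermat.Agent.MU.S36.Igusa.AsmSetup
import Fermat.Agent.MU.S36.Igusa.Theta
import Fermat.Agent.MU.S36.Igusa.Kummer
import Fermat.Agent.MU.S36.Igusa.Exp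
import Fermat.Agent.MU.Lib.BadRed.Mod.GaussSetupFinal
import Fermat.Agent.MU.S36.Igusa.Val
import Fermat.Agent.MU.S36.Igusa.Lies
import Fermat.Agent.MU.S36.Igusa.Ram
import Fermat.Agent.MU.S36.Igusa.ExpExists
import Fermat.Agent.MU.Lib.RR.OfModularBar

section MergeWrap_Lib_BadRed_Igusa_CountAbs -- from Lib/BadRed/Igusa/CountAbs.lean

set_option autoImplicit false
set_option linter.style.haveILetI false
set_option linter.unusedSectionVars false

noncomputable section

namespace Fermat.Agent.BadRed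

open scoped Classical

variable {F₀ F : Type*} [Field F₀] [Field F] [Algebra F₀ F]

section SumElim

variable {Ov : ValuationSubring F₀} {O : ValuationSubring F}

/-- adding an empty family does not change residual independence. -/
theorem resIndep_sumElim_of_isEmpty {κ U : Type*} [Fintype κ] [Fintype U] [IsEmpty U]
    {x : κ → F} (hx : ResIndep Ov O x) (z : U → F) :
    ResIndep Ov O (Sum.elim x z : κ ⊕ U → F) := by
  refine ⟨fun i => ?_, fun a ha hsum => ?_⟩
  · rcases i with i | u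
    · exact hx.1 i
    · exact isEmptyElim u
  · rw [Fintype.sum_sum_type] at hsum
    simp only [Sum.elim_inl, Sum.elim_inr, Finset.univ_eq_empty, Finset.sum_empty,
      add_zero] at hsum
    have h2 := hx.2 (fun l => a (Sum.inl l)) (fun l => ha _) hsum
    intro l
    rcases l with l | u
    · exact h2 l
    · exact isEmptyElim u

/-- extending a residually independent family (any finite index type) by one element which is
not congruent to a combination of the family. -/
theorem resIndep_sumElim_of_unique {κ U : Type*} [Fintype κ] [Fintype U] [Unique U]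
    (h : LiesOverV Ov O) {x : κ → F} (hx : ResIndep Ov O x) {y : F} (hy : y ∈ O)
    (hno : ∀ g : κ → F₀, (∀ l, g l ∈ Ov) →
      y - ∑ l, algebraMap F₀ F (g l) * x l ∉ O.nonunits) :
    ResIndep Ov O (Sum.elim x (fun _ : U => y) : κ ⊕ U → F) := by
  refine ⟨fun i => ?_, fun a ha hsum => ?_⟩
  · rcases i with i | u
    · exact hx.1 i
    · exact hy
  · rw [Fintype.sum_sum_type] at hsum
    simp only [Sum.elim_inl, Sum.elim_inr, Finset.univ_unique, Finset.sum_singleton] at hsum
    set b : F₀ := a (Sum.inr default) with hb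
    have h1 : b ∈ Ov.nonunits := by
      by_contra hu
      have ha1 : b ≠ 0 := by
        rintro h0
        apply hu
        rw [h0, ValuationSubring.mem_nonunits_iff, map_zero]
        exact zero_lt_one
      have hinv : b⁻¹ ∈ Ov := by
        rw [ValuationSubring.mem_nonunits_iff_or, not_or, not_not] at hu
        exact hu.2
      apply hno (fun l => -(a (Sum.inl l) * b⁻¹))
        (fun l => Ov.neg_mem _ (Ov.mul_mem _ _ (ha _) hinv))
      have e : y - ∑ l, algebraMap F₀ F (-(a (Sum.inl l) * b⁻¹)) * x l =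
          algebraMap F₀ F b⁻¹ *
            (∑ l, algebraMap F₀ F (a (Sum.inl l)) * x l + algebraMap F₀ F b * y) := by
        have hne : algebraMap F₀ F b ≠ 0 := by simpa using ha1
        rw [mul_add, Finset.mul_sum, map_inv₀, ← mul_assoc, inv_mul_cancel₀ hne, one_mul,
          sub_eq_add_neg, add_comm, ← Finset.sum_neg_distrib]
        congr 1
        refine Finset.sum_congr rfl fun i _ => ?_
        rw [map_neg, map_mul, map_inv₀]
        ring
      rw [e]
      exact mul_nonunits_mem ((h.mem_iff _).mpr hinv) hsum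
    have h0 : ∑ l, algebraMap F₀ F (a (Sum.inl l)) * x l ∈ O.nonunits := by
      have e : ∑ l, algebraMap F₀ F (a (Sum.inl l)) * x l =
          (∑ l, algebraMap F₀ F (a (Sum.inl l)) * x l + algebraMap F₀ F b * y)
            - algebraMap F₀ F b * y := by
        ring
      rw [e]
      rw [ValuationSubring.mem_nonunits_iff] at hsum ⊢
      refine lt_of_le_of_lt (Valuation.map_sub _ _ _) (max_lt hsum ?_)
      rw [← ValuationSubring.mem_nonunits_iff]
      exact nonunits_mul_mem ((h.nonunits_iff _).mpr h1) hy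
    have h2 := hx.2 (fun l => a (Sum.inl l)) (fun l => ha _) h0
    intro l
    rcases l with l | u
    · exact h2 l
    · rw [Unique.eq_default u]
      exact h1

/-- multiplying a residually independent family by a unit of `O`. -/
theorem ResIndep.mul_unit {κ : Type*} [Fintype κ] {x : κ → F} (hx : ResIndep Ov O x)
    {u : F} (hu : O.valuation u = 1) : ResIndep Ov O (fun l => u * x l) := by
  have huO : u ∈ O := (O.valuation_le_one_iff u).mp hu.le
  refine ⟨fun l => O.mul_mem _ _ huO (hx.1 l), fun a ha hsum => ?_⟩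
  refine hx.2 a ha ?_
  have e : ∑ l, algebraMap F₀ F (a l) * (u * x l) = u * ∑ l, algebraMap F₀ F (a l) * x l := by
    rw [Finset.mul_sum]
    refine Finset.sum_congr rfl fun l _ => ?_
    ring
  rw [e, ValuationSubring.mem_nonunits_iff, map_mul, hu, one_mul] at hsum
  rwa [ValuationSubring.mem_nonunits_iff]

end SumElim

/-! ### `e = 1` over a divisible value group -/

/-- **`e = 1`** for an extension of a valuation ring whose value group is divisible (e.g. any
Gauss valuation over `Qbar`): every value of `F` is the value of an element of `F₀`. -/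
theorem exists_val_eq_of_divisible [Algebra.IsAlgebraic F₀ F] {Ov : ValuationSubring F₀}
    {O : ValuationSubring F} (h : LiesOverV Ov O)
    (hdiv : ∀ a : F₀, a ≠ 0 → ∀ m : ℕ, 0 < m → ∃ c : F₀, Ov.valuation c ^ m = Ov.valuation a)
    {y : F} (hy : y ≠ 0) :
    ∃ c : F₀, c ≠ 0 ∧ O.valuation y = O.valuation (algebraMap F₀ F c) := by
  have hint : IsIntegral F₀ y := (Algebra.IsAlgebraic.isAlgebraic y).isIntegral
  set P := minpoly F₀ y with hP
  have hmonic : P.Monic := minpoly.monic hint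
  have haeval : ∑ k ∈ Finset.range (P.natDegree + 1), algebraMap F₀ F (P.coeff k) * y ^ k = 0 := by
    have h0 : Polynomial.aeval y P = 0 := minpoly.aeval F₀ y
    rw [Polynomial.aeval_eq_sum_range] at h0
    simp only [Algebra.smul_def] at h0
    exact h0
  -- key: for `i < j` with equal values of the terms, the claim follows
  have key : ∀ i j : ℕ, i < j → P.coeff i ≠ 0 → P.coeff j ≠ 0 →
      O.valuation (algebraMap F₀ F (P.coeff i) * y ^ i) =
        O.valuation (algebraMap F₀ F (P.coeff j) * y ^ j) →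
      ∃ c : F₀, c ≠ 0 ∧ O.valuation y = O.valuation (algebraMap F₀ F c) := by
    intro i j hij hi hj hval
    set m := j - i with hm
    have hmpos : 0 < m := by omega
    set a : F₀ := P.coeff i / P.coeff j with ha
    have ha0 : a ≠ 0 := div_ne_zero hi hj
    obtain ⟨c, hc⟩ := hdiv a ha0 m hmpos
    have hc0 : c ≠ 0 := by
      rintro rfl
      rw [map_zero, zero_pow hmpos.ne'] at hc
      exact ha0 ((map_eq_zero _).mp hc.symm)
    refine ⟨c, hc0, ?_⟩
    -- `w(y)^m = w(a)`
    have hvy : O.valuation y ≠ 0 := (map_ne_zero _).mpr hy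
    have hvj : O.valuation (algebraMap F₀ F (P.coeff j)) ≠ 0 :=
      (map_ne_zero _).mpr (by simpa using hj)
    have h1 : O.valuation y ^ m = O.valuation (algebraMap F₀ F a) := by
      rw [ha, map_div₀, map_div₀]
      rw [map_mul, map_mul, map_pow, map_pow] at hval
      have hji : j = i + m := by omega
      rw [hji, pow_add, ← mul_assoc] at hval
      have hvyi : O.valuation y ^ i ≠ 0 := pow_ne_zero _ hvy
      rw [eq_div_iff hvj]
      have h2 : O.valuation (algebraMap F₀ F (P.coeff i)) * O.valuation y ^ i =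
          (O.valuation y ^ m * O.valuation (algebraMap F₀ F (P.coeff (i + m)))) *
            O.valuation y ^ i := by
        rw [hval]
        ac_rfl
      have h3 := mul_right_cancel₀ hvyi h2
      rw [hji]
      exact h3.symm
    -- `w(c)^m = w(a)`
    have h2 : O.valuation (algebraMap F₀ F c) ^ m = O.valuation (algebraMap F₀ F a) := by
      have h3 : Ov.valuation (c ^ m / a) = 1 := by
        rw [map_div₀, map_pow, hc]
        exact div_self ((map_ne_zero _).mpr ha0)
      have h4 := (h.val_eq_one_iff _).mpr h3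
      rw [map_div₀, map_div₀, map_pow, map_pow] at h4
      have hva : O.valuation (algebraMap F₀ F a) ≠ 0 := (map_ne_zero _).mpr (by simpa using ha0)
      exact (div_eq_one_iff_eq hva).mp h4
    have h5 : O.valuation y ^ m = O.valuation (algebraMap F₀ F c) ^ m := by rw [h1, h2]
    exact (pow_left_inj₀ zero_le zero_le hmpos.ne').mp h5
  have hne : ∃ k ∈ Finset.range (P.natDegree + 1), algebraMap F₀ F (P.coeff k) * y ^ k ≠ 0 := by
    refine ⟨P.natDegree, Finset.mem_range.mpr (Nat.lt_succ_self _), ?_⟩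
    rw [Polynomial.coeff_natDegree, hmonic.leadingCoeff, map_one, one_mul]
    exact pow_ne_zero _ hy
  obtain ⟨i, -, j, -, hij, hval, hj0⟩ :=
    exists_ne_val_eq_of_sum_eq_zero O.valuation _ _ haeval hne
  have hcj : P.coeff j ≠ 0 := by
    rintro h0
    apply hj0
    rw [h0, map_zero, zero_mul]
  have hi0 : algebraMap F₀ F (P.coeff i) * y ^ i ≠ 0 := by
    intro h0
    rw [h0, map_zero] at hval
    exact hj0 ((map_eq_zero _).mp hval.symm)
  have hci : P.coeff i ≠ 0 := by
    rintro h0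
    apply hi0
    rw [h0, map_zero, zero_mul]
  rcases Nat.lt_or_gt_of_ne hij with hlt | hgt
  · exact key i j hlt hci hcj hval
  · exact key j i hgt hcj hci hval.symm

/-! ### Saturated systems -/

/-- A **saturated system of extensions**: pairwise distinct extensions `O i` of `Ov` to the finite
extension `F / F₀` with residually independent families of total size `[F : F₀]`. -/
structure SatExt {ι : Type*} [Fintype ι] (Ov : ValuationSubring F₀)
    (O : ι → ValuationSubring F) (d : ι → ℕ) (x : (i : ι) → Fin (d i) → F) : Prop where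
  /-- `F / F₀` is finite -/
  finite : FiniteDimensional F₀ F
  /-- `O i` lies over `Ov` -/
  liesOver : ∀ i, LiesOverV Ov (O i)
  /-- the `O i` are pairwise distinct -/
  inj : Function.Injective O
  /-- the residue field of `Ov` is infinite -/
  infinite : ∃ c : ℕ → F₀, (∀ m, c m ∈ Ov) ∧ ∀ m m', m ≠ m' → c m - c m' ∉ Ov.nonunits
  /-- residual independence -/
  indep : ∀ i, ResIndep Ov (O i) (x i)
  /-- the sizes add up to the degree -/
  sum_eq : ∑ i, d i = Module.finrank F₀ F

namespace SatExt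

variable {ι : Type*} [Fintype ι] {Ov : ValuationSubring F₀} {O : ι → ValuationSubring F}
  {d : ι → ℕ} {x : (i : ι) → Fin (d i) → F}

/-- **The list is complete**: every extension of `Ov` to `F` is one of the `O i`. -/
theorem exists_eq (T : SatExt Ov O d x) {O' : ValuationSubring F} (h' : LiesOverV Ov O') :
    ∃ i, O' = O i := by
  by_contra hne
  rw [not_exists] at hne
  have := T.finite
  obtain ⟨c, hc, hcu⟩ := T.infinite
  have key := sum_card_le_finrank Ov (fun o : Option ι => o.elim O' O)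
    (fun o => by
      rcases o with _ | i
      · exact h'
      · exact T.liesOver i)
    (fun o o' hoo' => by
      rcases o with _ | i <;> rcases o' with _ | j
      · rfl
      · exact absurd hoo' (hne j)
      · exact absurd hoo'.symm (hne i)
      · exact congrArg some (T.inj hoo'))
    c hc hcu
    (fun o : Option ι => Fin (o.elim 1 d))
    (fun o => match o with
      | none => fun _ => (1 : F)
      | some i => x i)
    (fun o => by
      rcases o with _ | i
      · exact resIndep_one h'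
      · exact T.indep i)
  simp only [Fintype.card_fin] at key
  rw [Fintype.sum_option] at key
  simp only [Option.elim_none, Option.elim_some] at key
  rw [T.sum_eq] at key
  omega

/-- **Exact residue degree**: every element of `O i` is congruent mod the maximal ideal to a
combination of the family `x i` with coefficients in `Ov`. -/
theorem residue_span (T : SatExt Ov O d x) (i : ι) {y : F} (hy : y ∈ O i) :
    ∃ g : Fin (d i) → F₀, (∀ l, g l ∈ Ov) ∧
      y - ∑ l, algebraMap F₀ F (g l) * x i l ∈ (O i).nonunits := by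
  by_contra hno
  rw [not_exists] at hno
  have hno' : ∀ g : Fin (d i) → F₀, (∀ l, g l ∈ Ov) →
      y - ∑ l, algebraMap F₀ F (g l) * x i l ∉ (O i).nonunits :=
    fun g hg hh => hno g ⟨hg, hh⟩
  have := T.finite
  obtain ⟨c, hc, hcu⟩ := T.infinite
  have key := sum_card_le_finrank Ov O T.liesOver T.inj c hc hcu
    (fun j : ι => Fin (d j) ⊕ PLift (j = i))
    (fun j => Sum.elim (x j) (fun _ => y))
    (fun j => by
      by_cases hji : j = i
      · subst hji
        letI : Unique (PLift (j = j)) := ⟨⟨⟨rfl⟩⟩, fun _ => Subsingleton.elim _ _⟩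
        exact resIndep_sumElim_of_unique (T.liesOver j) (T.indep j) hy hno'
      · have : IsEmpty (PLift (j = i)) := ⟨fun h => hji h.down⟩
        exact resIndep_sumElim_of_isEmpty (T.indep j) _)
  have hcard : ∀ j : ι, Fintype.card (Fin (d j) ⊕ PLift (j = i)) = d j + if j = i then 1 else 0 := by
    intro j
    rw [Fintype.card_sum, Fintype.card_fin]
    congr 1
    by_cases hji : j = i
    · rw [if_pos hji]
      letI : Unique (PLift (j = i)) := ⟨⟨⟨hji⟩⟩, fun _ => Subsingleton.elim _ _⟩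
      exact Fintype.card_unique
    · rw [if_neg hji]
      have : IsEmpty (PLift (j = i)) := ⟨fun h => hji h.down⟩
      exact Fintype.card_eq_zero
  simp only [hcard] at key
  rw [Finset.sum_add_distrib, T.sum_eq, Finset.sum_ite_eq' Finset.univ i] at key
  simp only [Finset.mem_univ, if_true] at key
  omega

/-- every family is nonempty. -/
theorem pos (T : SatExt Ov O d x) (i : ι) : 0 < d i := by
  by_contra h0
  have hd : d i = 0 := by omega
  obtain ⟨g, -, hg⟩ := T.residue_span i (O i).one_mem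
  have hempty : ∑ l : Fin (d i), algebraMap F₀ F (g l) * x i l = 0 := by
    have : IsEmpty (Fin (d i)) := by rw [hd]; infer_instance
    exact Finset.sum_of_isEmpty _
  rw [hempty, sub_zero, ValuationSubring.mem_nonunits_iff, map_one] at hg
  exact lt_irrefl _ hg

/-- the families may be replaced by families which are integral at all `O j` and lie in the
maximal ideal of `O j` for `j ≠ i`. -/
theorem exists_joint (T : SatExt Ov O d x) :
    ∃ x' : (i : ι) → Fin (d i) → F, SatExt Ov O d x' ∧ (∀ i l j, x' i l ∈ O j) ∧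
      ∀ i l j, j ≠ i → x' i l ∈ (O j).nonunits := by
  have := T.finite
  obtain ⟨c, hc, hcu⟩ := T.infinite
  have hinc : ∀ i j, i ≠ j → ¬ O i ≤ O j := fun i j hij =>
    not_le_of_liesOverV (T.liesOver i) (T.liesOver j) (fun h => hij (T.inj h))
  have hc' : ∀ i m, algebraMap F₀ F (c m) ∈ O i := fun i m =>
    ((T.liesOver i).mem_iff _).mpr (hc m)
  have hcu' : ∀ i m m', m ≠ m' →
      algebraMap F₀ F (c m) - algebraMap F₀ F (c m') ∉ (O i).nonunits := by
    intro i m m' hmm
    rw [← map_sub, (T.liesOver i).nonunits_iff]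
    exact hcu m m' hmm
  have hE := fun i => exists_idempotent_like O (fun m => algebraMap F₀ F (c m)) hinc hc' hcu' i
  choose E hE1 hE2 hE3 using hE
  have hs := fun i => exists_common_denominator O (fun m => algebraMap F₀ F (c m)) hc' hcu' i
    (x i) (T.indep i).1
  choose s hs1 hs2 hs3 using hs
  refine ⟨fun i l => (E i * s i) * x i l, ⟨T.finite, T.liesOver, T.inj, T.infinite, fun i => ?_,
    T.sum_eq⟩, fun i l j => ?_, fun i l j hji => ?_⟩
  · refine (T.indep i).mul_unit ?_
    rw [map_mul, val_eq_one_of_sub_one_mem_nonunits (hE2 i), hs2 i, one_mul]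
  · show E i * s i * x i l ∈ O j
    rw [mul_assoc]
    exact (O j).mul_mem _ _ (hE1 i j) (hs3 i l j)
  · show E i * s i * x i l ∈ (O j).nonunits
    rw [mul_assoc]
    exact nonunits_mul_mem (hE3 i j hji) (hs3 i l j)

/-- **Weak approximation with residues**: every `y ∈ O i` is congruent mod `m_i` to an element
which is integral at all `O j` and lies in the maximal ideal of `O j` for `j ≠ i`. -/
theorem exists_jointLift (T : SatExt Ov O d x) (i : ι) {y : F} (hy : y ∈ O i) :
    ∃ b : F, (∀ j, b ∈ O j) ∧ b - y ∈ (O i).nonunits ∧ ∀ j, j ≠ i → b ∈ (O j).nonunits := by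
  obtain ⟨x', T', hmem, hnon⟩ := T.exists_joint
  obtain ⟨g, hg, hgy⟩ := T'.residue_span i hy
  refine ⟨∑ l, algebraMap F₀ F (g l) * x' i l, fun j => ?_, ?_, fun j hji => ?_⟩
  · exact (O j).toSubring.sum_mem fun l _ =>
      (O j).mul_mem _ _ (((T.liesOver j).mem_iff _).mpr (hg l)) (hmem i l j)
  · have e : ∑ l, algebraMap F₀ F (g l) * x' i l - y
        = -(y - ∑ l, algebraMap F₀ F (g l) * x' i l) := by ring
    rw [e]
    exact (O i).nonunits.neg_mem hgy
  · exact (O j).nonunits.sum_mem fun l _ =>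
      mul_nonunits_mem (((T.liesOver j).mem_iff _).mpr (hg l)) (hnon i l j hji)

end SatExt

/-! ### Residue maps -/

section Residue

variable {ι : Type*} [Fintype ι] {Ov : ValuationSubring F₀} {O : ι → ValuationSubring F}
  {d : ι → ℕ} {x : (i : ι) → Fin (d i) → F}
  {Ek : Type*} [Field Ek] {Fk : ι → Type*} [∀ i, Field (Fk i)] [∀ i, Algebra Ek (Fk i)]
  {ρE : Ov →+* Ek} {ρF : ∀ i, O i →+* Fk i}

/-- Residue maps for a system of extensions `O i` of `Ov`: surjective ring homomorphisms onto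
fields, killing the maximal ideals, compatible with the inclusions. -/
structure SatRes (Ov : ValuationSubring F₀) (O : ι → ValuationSubring F)
    (ρE : Ov →+* Ek) (ρF : ∀ i, O i →+* Fk i) : Prop where
  /-- `ρE` is surjective -/
  surjE : Function.Surjective ρE
  /-- `ρF i` is surjective -/
  surjF : ∀ i, Function.Surjective (ρF i)
  /-- `ρE` kills the maximal ideal -/
  kerE : ∀ y : Ov, ¬ IsUnit y → ρE y = 0
  /-- `ρF i` kills the maximal ideal -/
  kerF : ∀ i (y : O i), ¬ IsUnit y → ρF i y = 0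
  /-- compatibility -/
  red_map : ∀ (i : ι) (y : F₀) (hy : y ∈ Ov) (hy' : algebraMap F₀ F y ∈ O i),
    ρF i ⟨algebraMap F₀ F y, hy'⟩ = algebraMap Ek (Fk i) (ρE ⟨y, hy⟩)

theorem not_isUnit_iff_mem_nonunits {K : Type*} [Field K] (A : ValuationSubring K) (y : A) :
    ¬ IsUnit y ↔ (y : K) ∈ A.nonunits := by
  rw [ValuationSubring.coe_mem_nonunits_iff, IsLocalRing.mem_maximalIdeal, mem_nonunits_iff]

namespace SatRes

theorem resF_eq_zero_iff (R : SatRes Ov O ρE ρF) (i : ι) (y : O i) :
    ρF i y = 0 ↔ (y : F) ∈ (O i).nonunits := by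
  rw [← not_isUnit_iff_mem_nonunits]
  constructor
  · intro h0 hu
    exact (hu.map (ρF i)).ne_zero h0
  · exact R.kerF i y

theorem resE_eq_zero_iff (R : SatRes Ov O ρE ρF) (y : Ov) :
    ρE y = 0 ↔ (y : F₀) ∈ Ov.nonunits := by
  rw [← not_isUnit_iff_mem_nonunits]
  constructor
  · intro h0 hu
    exact (hu.map ρE).ne_zero h0
  · exact R.kerE y

/-- the residue of a combination. -/
theorem res_sum (R : SatRes Ov O ρE ρF) (i : ι) (hover : LiesOverV Ov (O i))
    {κ : Type*} [Fintype κ] (g : κ → F₀) (hg : ∀ l, g l ∈ Ov) (z : κ → F)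
    (hz : ∀ l, z l ∈ O i) (hs : ∑ l, algebraMap F₀ F (g l) * z l ∈ O i) :
    ρF i ⟨∑ l, algebraMap F₀ F (g l) * z l, hs⟩ = ∑ l, ρE ⟨g l, hg l⟩ • ρF i ⟨z l, hz l⟩ := by
  have hmem : ∀ l, algebraMap F₀ F (g l) ∈ O i := fun l => (hover.mem_iff _).mpr (hg l)
  have e : (⟨∑ l, algebraMap F₀ F (g l) * z l, hs⟩ : O i)
      = ∑ l, (⟨algebraMap F₀ F (g l), hmem l⟩ : O i) * ⟨z l, hz l⟩ := by
    apply Subtype.ext
    have h1 : ((∑ l, (⟨algebraMap F₀ F (g l), hmem l⟩ : O i) * ⟨z l, hz l⟩ : O i) : F)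
        = ∑ l, (((⟨algebraMap F₀ F (g l), hmem l⟩ : O i) * ⟨z l, hz l⟩ : O i) : F) :=
      map_sum (O i).subtype _ _
    rw [h1]
    rfl
  rw [e, map_sum]
  refine Finset.sum_congr rfl fun l _ => ?_
  rw [map_mul, R.red_map i _ (hg l), Algebra.smul_def]

end SatRes

/-- criterion for residual independence: the residues are linearly independent. -/
theorem resIndep_of_linearIndependent_res (R : SatRes Ov O ρE ρF) (i : ι)
    (hover : LiesOverV Ov (O i)) {κ : Type*} [Fintype κ] {z : κ → F} (hz : ∀ l, z l ∈ O i)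
    (hli : LinearIndependent Ek (fun l => ρF i ⟨z l, hz l⟩)) : ResIndep Ov (O i) z := by
  refine ⟨hz, fun a ha hsum => ?_⟩
  have hs : ∑ l, algebraMap F₀ F (a l) * z l ∈ O i :=
    (O i).toSubring.sum_mem fun l _ => (O i).mul_mem _ _ ((hover.mem_iff _).mpr (ha l)) (hz l)
  have h0 : ρF i ⟨∑ l, algebraMap F₀ F (a l) * z l, hs⟩ = 0 :=
    (R.resF_eq_zero_iff i _).mpr hsum
  rw [R.res_sum i hover a ha z hz hs] at h0
  have h1 := Fintype.linearIndependent_iff.mp hli _ h0
  intro l
  exact (R.resE_eq_zero_iff _).mp (h1 l)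

namespace SatExt

/-- the residues of the family `x i` are linearly independent. -/
theorem linearIndependent_res (T : SatExt Ov O d x) (R : SatRes Ov O ρE ρF) (i : ι) :
    LinearIndependent Ek (fun l : Fin (d i) => ρF i ⟨x i l, (T.indep i).1 l⟩) := by
  rw [Fintype.linearIndependent_iff]
  intro c hc l
  choose a ha using fun l => R.surjE (c l)
  have hs : ∑ l, algebraMap F₀ F ((a l : Ov) : F₀) * x i l ∈ O i :=
    (O i).toSubring.sum_mem fun l _ =>
      (O i).mul_mem _ _ (((T.liesOver i).mem_iff _).mpr (a l).2) ((T.indep i).1 l)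
  have h1 := R.res_sum i (T.liesOver i) (fun l => ((a l : Ov) : F₀)) (fun l => (a l).2) (x i)
    (T.indep i).1 hs
  have h2 : ∑ l, ρE ⟨((a l : Ov) : F₀), (a l).2⟩ • ρF i ⟨x i l, (T.indep i).1 l⟩ = 0 := by
    rw [← hc]
    refine Finset.sum_congr rfl fun l _ => ?_
    rw [← ha l]
  rw [h2] at h1
  have h3 := (T.indep i).2 (fun l => ((a l : Ov) : F₀)) (fun l => (a l).2)
    ((R.resF_eq_zero_iff i _).mp h1) l
  rw [← ha l]
  exact (R.resE_eq_zero_iff _).mpr h3

/-- the residues of the family `x i` span the residue field. -/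
theorem span_res (T : SatExt Ov O d x) (R : SatRes Ov O ρE ρF) (i : ι) :
    Submodule.span Ek (Set.range fun l : Fin (d i) => ρF i ⟨x i l, (T.indep i).1 l⟩) = ⊤ := by
  rw [eq_top_iff]
  rintro β -
  obtain ⟨y, rfl⟩ := R.surjF i β
  obtain ⟨g, hg, hgy⟩ := T.residue_span i y.2
  have hs : ∑ l, algebraMap F₀ F (g l) * x i l ∈ O i :=
    (O i).toSubring.sum_mem fun l _ =>
      (O i).mul_mem _ _ (((T.liesOver i).mem_iff _).mpr (hg l)) ((T.indep i).1 l)
  have h1 : ρF i y = ρF i ⟨∑ l, algebraMap F₀ F (g l) * x i l, hs⟩ := by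
    rw [← sub_eq_zero, ← map_sub]
    exact (R.resF_eq_zero_iff i _).mpr hgy
  rw [h1, R.res_sum i (T.liesOver i) g hg (x i) (T.indep i).1 hs]
  exact Submodule.sum_mem _ fun l _ =>
    Submodule.smul_mem _ _ (Submodule.subset_span ⟨l, rfl⟩)

/-- the basis of the residue field given by the residues of the family `x i`. -/
def basisRes (T : SatExt Ov O d x) (R : SatRes Ov O ρE ρF) (i : ι) :
    Module.Basis (Fin (d i)) Ek (Fk i) :=
  Module.Basis.mk (T.linearIndependent_res R i) (T.span_res R i).ge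

theorem basisRes_apply (T : SatExt Ov O d x) (R : SatRes Ov O ρE ρF) (i : ι) (l : Fin (d i)) :
    T.basisRes R i l = ρF i ⟨x i l, (T.indep i).1 l⟩ := by
  rw [basisRes, Module.Basis.coe_mk]

/-- the residue field at `O i` is finite over the residue field of `Ov`. -/
theorem finite_res (T : SatExt Ov O d x) (R : SatRes Ov O ρE ρF) (i : ι) :
    Module.Finite Ek (Fk i) :=
  Module.Finite.of_basis (T.basisRes R i)

/-- **the residue degree at `O i` is `d i`**. -/
theorem finrank_res (T : SatExt Ov O d x) (R : SatRes Ov O ρE ρF) (i : ι) :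
    Module.finrank Ek (Fk i) = d i := by
  rw [Module.finrank_eq_card_basis (T.basisRes R i), Fintype.card_fin]

/-- `[F : F₀] = ∑ i, [Fk i : Ek]`. -/
theorem finrank_eq_sum_res (T : SatExt Ov O d x) (R : SatRes Ov O ρE ρF) :
    Module.finrank F₀ F = ∑ i, Module.finrank Ek (Fk i) := by
  rw [← T.sum_eq]
  exact Finset.sum_congr rfl fun i _ => (T.finrank_res R i).symm

/-- if the family at `O i` consists of the powers of `θ`, the residue field at `O i` is
generated by the residue of `θ`. -/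
theorem adjoin_res_eq_top (T : SatExt Ov O d x) (R : SatRes Ov O ρE ρF) (i : ι) {θ : F}
    (hθO : θ ∈ O i) (hθ : ∀ l : Fin (d i), x i l = θ ^ (l : ℕ)) :
    Algebra.adjoin Ek {ρF i ⟨θ, hθO⟩} = ⊤ := by
  rw [eq_top_iff]
  rintro β -
  have hβ : β ∈ Submodule.span Ek
      (Set.range fun l : Fin (d i) => ρF i ⟨x i l, (T.indep i).1 l⟩) := by
    rw [T.span_res R i]
    exact Submodule.mem_top
  refine Submodule.span_le (p := Subalgebra.toSubmodule (Algebra.adjoin Ek {ρF i ⟨θ, hθO⟩})).mpr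
    ?_ hβ
  rintro _ ⟨l, rfl⟩
  have e : (⟨x i l, (T.indep i).1 l⟩ : O i) = ⟨θ, hθO⟩ ^ (l : ℕ) := by
    apply Subtype.ext
    rw [SubmonoidClass.coe_pow]
    exact hθ l
  show ρF i ⟨x i l, (T.indep i).1 l⟩ ∈ Algebra.adjoin Ek {ρF i ⟨θ, hθO⟩}
  rw [e, map_pow]
  exact Subalgebra.pow_mem _ (Algebra.subset_adjoin (Set.mem_singleton _)) _

/-- the hypotheses of the abstract norm lemma `normRed_multi` hold for a saturated system. -/
theorem multiNormSetup (T : SatExt Ov O d x) (R : SatRes Ov O ρE ρF) :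
    Fermat.Agent.S36.MultiNormSetup Ov O ρE ρF where
  mem_iff := fun i y => (T.liesOver i).mem_iff y
  red_map := R.red_map
  ker := R.kerE
  lift := by
    intro i β
    obtain ⟨y, rfl⟩ := R.surjF i β
    obtain ⟨b, hb, hby, hbj⟩ := T.exists_jointLift i y.2
    refine ⟨b, hb, ?_, fun l hl => (R.resF_eq_zero_iff l _).mpr (hbj l hl)⟩
    rw [← sub_eq_zero, ← map_sub]
    exact (R.resF_eq_zero_iff i _).mpr hby

/-- **Norm and reduction for a saturated system**: the norm of an element which is integral at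
all the `O i` is integral at `Ov`, and its residue is the product of the norms of the residues. -/
theorem normRed (T : SatExt Ov O d x) (R : SatRes Ov O ρE ρF) (t : F) (ht : ∀ i, t ∈ O i) :
    ∃ h : Algebra.norm F₀ t ∈ Ov,
      ρE ⟨Algebra.norm F₀ t, h⟩ = ∏ i, Algebra.norm Ek (ρF i ⟨t, ht i⟩) := by
  have := T.finite
  have := fun i => T.finite_res R i
  exact Fermat.Agent.S36.normRed_multi (T.multiNormSetup R) (T.finrank_eq_sum_res R) t ht

end SatExt

end Residue

end Fermat.Agent.BadRed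
end
end MergeWrap_Lib_BadRed_Igusa_CountAbs

section MergeWrap_S36_Igusa_AsmDefs2 -- from S36/Igusa/AsmDefs2.lean

set_option autoImplicit false

noncomputable section

namespace Fermat.Agent.S36G

open ModularCurve

/-- **(POW)** the powers `(θ j̄)^l`, `l < midDeg q`, are linearly independent over `k(Z)`. -/
def IgPowIndep (M₀ q : ℕ) : Prop :=
  q.Prime → ¬ q ∣ M₀ → ∀ (k : Type) [Field k] [IsAlgClosed k] [CharP k q],
    ∀ c : Fin (midDeg q) → LaurentSeries k, (∀ l, c l ∈ modularFunctionFieldFullC k M₀) →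
      ∑ l, c l * Fermat.Agent.IgusaDeg.theta k (jqModC k) ^ (l : ℕ) = 0 → ∀ l, c l = 0

end Fermat.Agent.S36G
end
end MergeWrap_S36_Igusa_AsmDefs2

section MergeWrap_S36_Igusa_Pow -- from S36/Igusa/Pow.lean

set_option autoImplicit false

noncomputable section

namespace Fermat.Agent.S36G

open ModularCurve

/-- abstract form: if `[E(θ) : E] = d` then `1, θ, …, θ^(d-1)` are linearly independent over
`E` (for `d = 0` there is nothing to prove). -/
theorem igPow_indep_of_relfinrank {k L : Type*} [Field k] [Field L] [Algebra k L]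
    (E : IntermediateField k L) (θ : L) (d : ℕ)
    (hdeg : IntermediateField.relfinrank E
      (IntermediateField.adjoin k ((E : Set L) ∪ {θ})) = d)
    (c : Fin d → L) (hc : ∀ l, c l ∈ E) (hsum : ∑ l, c l * θ ^ (l : ℕ) = 0) :
    ∀ l, c l = 0 := by
  rcases Nat.eq_zero_or_pos d with hd0 | hdpos
  · subst hd0
    intro l
    exact l.elim0
  have hle : E ≤ IntermediateField.adjoin k ((E : Set L) ∪ {θ}) := fun x hx =>
    IntermediateField.subset_adjoin k _ (Or.inl hx)
  rw [IntermediateField.relfinrank_eq_finrank_of_le hle] at hdeg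
  have hext : IntermediateField.extendScalars hle = IntermediateField.adjoin E {θ} := by
    apply IntermediateField.restrictScalars_injective k
    rw [IntermediateField.extendScalars_restrictScalars,
      IntermediateField.restrictScalars_adjoin]
  rw [hext] at hdeg
  -- `θ` is algebraic over `E`
  have hfin : Module.Finite E ↥(IntermediateField.adjoin E {θ}) :=
    Module.finite_of_finrank_pos (by rw [hdeg]; exact hdpos)
  have hint : IsIntegral E θ := by
    have h1 : IsIntegral E (⟨θ, IntermediateField.mem_adjoin_simple_self E θ⟩ :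
        ↥(IntermediateField.adjoin E {θ})) := IsIntegral.of_finite E _
    have h2 := h1.map (IntermediateField.val (IntermediateField.adjoin E {θ}))
    exact h2
  have hnat : (minpoly E θ).natDegree = d := by
    rw [← IntermediateField.adjoin.finrank hint]
    exact hdeg
  have hli := linearIndependent_pow (K := E) θ
  rw [Fintype.linearIndependent_iff] at hli
  intro l
  have key := hli (fun i => (⟨c (Fin.cast hnat i), hc _⟩ : E)) (by
    have h3 : ∑ i : Fin (minpoly E θ).natDegree,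
        (⟨c (Fin.cast hnat i), hc _⟩ : E) • θ ^ (i : ℕ) =
        ∑ l : Fin d, c l * θ ^ (l : ℕ) := by
      refine Fintype.sum_equiv (finCongr hnat) _ _ (fun i => ?_)
      rfl
    rw [h3]
    exact hsum) (Fin.cast hnat.symm l)
  have h4 := congrArg Subtype.val key
  simpa using h4

/-- **(IG-POW)** -/
theorem igPowIndep_of_degree (M₀ q : ℕ) (h : IgDegree M₀ q) : IgPowIndep M₀ q := by
  intro hq hqM k _ _ _ c hc hsum
  exact igPow_indep_of_relfinrank (modularFunctionFieldFullC k M₀)
    (Fermat.Agent.IgusaDeg.theta k (jqModC k)) (midDeg q) (h hq hqM k) c hc hsum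

end Fermat.Agent.S36G
end
end MergeWrap_S36_Igusa_Pow

section MergeWrap_S36_Igusa_AsmDefs3 -- from S36/Igusa/AsmDefs3.lean

set_option autoImplicit false

noncomputable section

namespace Fermat.Agent.S36G

open ModularCurve

local notation "Qb" => AlgebraicClosure ℚ

/-- **(IG2) at the residue fields**: `[k(Z)(θ j̄) : k(Z)] = (q - 1) / |Mid|` for the residue
field `k` of every place `A` of `ℚ̄` over `q`. -/
def IgDegreeRes (M₀ q : ℕ) : Prop :=
  q.Prime → ¬ q ∣ M₀ → ∀ (A : ValuationSubring Qb), A.LiesOverPrime q →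
    IntermediateField.relfinrank
      (modularFunctionFieldFullC (IsLocalRing.ResidueField A) M₀)
      (igField (IsLocalRing.ResidueField A) M₀) = midDeg q

/-- **(POW) at the residue fields**. -/
def IgPowIndepRes (M₀ q : ℕ) : Prop :=
  q.Prime → ¬ q ∣ M₀ → ∀ (A : ValuationSubring Qb), A.LiesOverPrime q →
    ∀ c : Fin (midDeg q) → LaurentSeries (IsLocalRing.ResidueField A),
      (∀ l, c l ∈ modularFunctionFieldFullC (IsLocalRing.ResidueField A) M₀) →
      ∑ l, c l * Fermat.Agent.IgusaDeg.theta (IsLocalRing.ResidueField A)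
        (jqModC (IsLocalRing.ResidueField A)) ^ (l : ℕ) = 0 → ∀ l, c l = 0

theorem igPowIndepRes_of_degreeRes (M₀ q : ℕ) (h : IgDegreeRes M₀ q) : IgPowIndepRes M₀ q := by
  intro hq hqM A hA c hc hsum
  exact igPow_indep_of_relfinrank
    (modularFunctionFieldFullC (IsLocalRing.ResidueField A) M₀)
    (Fermat.Agent.IgusaDeg.theta (IsLocalRing.ResidueField A)
      (jqModC (IsLocalRing.ResidueField A))) (midDeg q) (h hq hqM A hA) c hc hsum

end Fermat.Agent.S36G
end
end MergeWrap_S36_Igusa_AsmDefs3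

section MergeWrap_S36_Igusa_Dist -- from S36/Igusa/Dist.lean
attribute [local instance 10000] SubalgebraClass.toAlgebra HahnSeries.powerSeriesAlgebra

set_option autoImplicit false
set_option linter.unusedVariables false
set_option linter.unusedSectionVars false
set_option linter.style.haveILetI false
set_option synthInstance.maxHeartbeats 400000

noncomputable section

namespace Fermat.Agent.S36G

open ModularCurve AlgebraicCurve Fermat.Agent.GaussInt Fermat.Agent.Deuring
  Fermat.Agent.Kronecker Fermat.Agent.BadRed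

local notation "Qb" => AlgebraicClosure ℚ

/-! ### generic facts on `expOv`, `expRes` -/

section Generic

variable {F : Type*} [Field F] [Algebra Qb F] (ε : F →ₐ[Qb] LaurentSeries Qb)
  (A : ValuationSubring Qb)

theorem dist_expRes_eq_gaussRes {f : F} (hf : f ∈ expOv ε A) :
    expRes ε A f = gaussRes A (⊤ : IntermediateField Qb (LaurentSeries Qb)) ⟨ε f, hf⟩ := rfl

theorem dist_expRes_mul {f g : F} (hf : f ∈ expOv ε A) (hg : g ∈ expOv ε A) :
    expRes ε A (f * g) = expRes ε A f * expRes ε A g := by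
  rw [dist_expRes_eq_gaussRes ε A hf, dist_expRes_eq_gaussRes ε A hg,
    dist_expRes_eq_gaussRes ε A (mul_mem hf hg), ← map_mul]
  congr 1
  exact Subtype.ext (map_mul ε f g)

theorem dist_expRes_sub {f g : F} (hf : f ∈ expOv ε A) (hg : g ∈ expOv ε A) :
    expRes ε A (f - g) = expRes ε A f - expRes ε A g := by
  rw [dist_expRes_eq_gaussRes ε A hf, dist_expRes_eq_gaussRes ε A hg,
    dist_expRes_eq_gaussRes ε A (sub_mem hf hg), ← map_sub]
  congr 1
  exact Subtype.ext (map_sub ε f g)

theorem dist_expRes_one : expRes ε A (1 : F) = 1 := by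
  rw [dist_expRes_eq_gaussRes ε A (one_mem _)]
  have : (⟨ε 1, (one_mem (expOv ε A) : (1 : F) ∈ expOv ε A)⟩ :
      gaussSub A (⊤ : IntermediateField Qb (LaurentSeries Qb))) = 1 := Subtype.ext (map_one ε)
  rw [this, map_one]

theorem dist_expRes_pow {f : F} (hf : f ∈ expOv ε A) (n : ℕ) :
    expRes ε A (f ^ n) = expRes ε A f ^ n := by
  induction n with
  | zero => rw [pow_zero, pow_zero, dist_expRes_one]
  | succ n ih => rw [pow_succ, pow_succ, dist_expRes_mul ε A (pow_mem hf n) hf, ih]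

theorem dist_algebraMap_mem {c : Qb} (hc : c ∈ A) : algebraMap Qb F c ∈ expOv ε A := by
  rw [mem_expOv_iff, AlgHom.commutes]
  exact algebraMap_mem_gaussSub hc

theorem dist_expRes_algebraMap {c : Qb} (hc : c ∈ A) :
    expRes ε A (algebraMap Qb F c) =
      algebraMap (IsLocalRing.ResidueField A) (LaurentSeries (IsLocalRing.ResidueField A))
        (IsLocalRing.residue A ⟨c, hc⟩) := by
  unfold expRes
  rw [AlgHom.commutes]
  exact gaussResFun_algebraMap hc

theorem dist_expRes_zero : expRes ε A (0 : F) = 0 := by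
  rw [dist_expRes_eq_gaussRes ε A (zero_mem _)]
  have : (⟨ε 0, (zero_mem (expOv ε A) : (0 : F) ∈ expOv ε A)⟩ :
      gaussSub A (⊤ : IntermediateField Qb (LaurentSeries Qb))) = 0 := Subtype.ext (map_zero ε)
  rw [this, map_zero]

theorem dist_inv_mem {f : F} (hf : f ∈ expOv ε A) (hres : expRes ε A f ≠ 0) :
    f⁻¹ ∈ expOv ε A := by
  rw [mem_expOv_iff, map_inv₀]
  exact inv_mem_gaussSub hf hres

/-- **separation**: a function with residue `0` for `ε` and nonzero residue for `ε'` shows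
that the two Gauss rings differ. -/
theorem dist_ne_of_sep (ε' : F →ₐ[Qb] LaurentSeries Qb) {g : F}
    (hg : g ∈ expOv ε A) (h0 : expRes ε A g = 0)
    (hg' : g ∈ expOv ε' A) (h1 : expRes ε' A g ≠ 0) : expOv ε A ≠ expOv ε' A := by
  intro heq
  have hg0 : g ≠ 0 := by
    rintro rfl
    exact h1 (dist_expRes_zero ε' A)
  have hinv' : g⁻¹ ∈ expOv ε' A := dist_inv_mem ε' A hg' h1
  have hinv : g⁻¹ ∈ expOv ε A := by rw [heq]; exact hinv'
  have h := dist_expRes_mul ε A hg hinv
  rw [mul_inv_cancel₀ hg0, dist_expRes_one, h0, zero_mul] at h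
  exact one_ne_zero h

end Generic

/-! ### roots of unity and constants -/

section Roots

variable (A : ValuationSubring Qb) {q : ℕ}

theorem dist_root_mem (hq : q.Prime) (z : Qbˣ) (hz : z ^ q = 1) : (z : Qb) ∈ A :=
  mem_valuationSubring_of_pow_eq_one A hq.pos
    (by rw [← Units.val_pow_eq_pow_val, hz, Units.val_one])

theorem dist_residue_root (hq : q.Prime) (hA : A.LiesOverPrime q) (z : Qbˣ) (hz : z ^ q = 1) :
    IsLocalRing.residue A ⟨(z : Qb), dist_root_mem A hq z hz⟩ = 1 := by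
  haveI := charP_residueField_of_liesOverPrime A q hq hA
  haveI : Fact q.Prime := ⟨hq⟩
  have hxq : (IsLocalRing.residue A ⟨(z : Qb), dist_root_mem A hq z hz⟩) ^ q = 1 := by
    rw [← map_pow]
    have : (⟨(z : Qb), dist_root_mem A hq z hz⟩ : A) ^ q = 1 := by
      apply Subtype.ext
      show (z : Qb) ^ q = 1
      rw [← Units.val_pow_eq_pow_val, hz, Units.val_one]
    rw [this, map_one]
  have h1 : (IsLocalRing.residue A ⟨(z : Qb), dist_root_mem A hq z hz⟩ - 1) ^ q = 0 := by
    rw [sub_pow_char, one_pow, hxq, sub_self]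
  exact sub_eq_zero.mp ((pow_eq_zero_iff hq.ne_zero).mp h1)

/-- the constant `(z ^ a - 1) / (z - 1) = 1 + z + ⋯ + z ^ (a - 1)`. -/
def distGeom (z : Qbˣ) (a : ℕ) : Qb := ∑ i ∈ Finset.range a, (z : Qb) ^ i

theorem distGeom_mul (z : Qbˣ) (a : ℕ) : distGeom z a * ((z : Qb) - 1) = (z : Qb) ^ a - 1 :=
  geom_sum_mul _ _

theorem distGeom_mem (hq : q.Prime) (z : Qbˣ) (hz : z ^ q = 1) (a : ℕ) : distGeom z a ∈ A :=
  sum_mem fun i _ => pow_mem (dist_root_mem A hq z hz) i

theorem dist_residue_distGeom (hq : q.Prime) (hA : A.LiesOverPrime q) (z : Qbˣ) (hz : z ^ q = 1)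
    (a : ℕ) :
    IsLocalRing.residue A ⟨distGeom z a, distGeom_mem A hq z hz a⟩ =
      (a : IsLocalRing.ResidueField A) := by
  have h : (⟨distGeom z a, distGeom_mem A hq z hz a⟩ : A) =
      ∑ i ∈ Finset.range a, (⟨(z : Qb), dist_root_mem A hq z hz⟩ : A) ^ i := by
    apply Subtype.ext
    rw [AddSubmonoidClass.coe_finsetSum]
    rfl
  rw [h, map_sum]
  simp only [map_pow, dist_residue_root A hq hA z hz, one_pow, Finset.sum_const,
    Finset.card_range, nsmul_eq_mul, mul_one]

theorem dist_cast_pow_eq_neg_one (hq : q.Prime) (k : Type*) [Field k] [CharP k q] (a : ℕ)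
    (hns : ¬ IsSquare (a : ZMod q)) : (a : k) ^ (q / 2) = -1 := by
  haveI : Fact q.Prime := ⟨hq⟩
  have ha0 : (a : ZMod q) ≠ 0 := fun h => hns (h ▸ ⟨0, by simp⟩)
  have h' : (a : ZMod q) ^ (q / 2) = -1 := by
    rcases ZMod.pow_div_two_eq_neg_one_or_one q ha0 with h | h
    · exact absurd ((ZMod.euler_criterion q ha0).mpr h) hns
    · exact h
  have := congrArg (ZMod.castHom (dvd_refl q) k) h'
  simpa using this

theorem dist_ne_two_of_not_isSquare (a : ℕ) (hns : ¬ IsSquare (a : ZMod q)) : q ≠ 2 := by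
  rintro rfl
  apply hns
  generalize (a : ZMod 2) = x
  fin_cases x
  · exact ⟨0, rfl⟩
  · exact ⟨1, rfl⟩

theorem dist_midDeg_eq_of_ne_two (hq : q.Prime) (hq2 : q ≠ 2) : midDeg q = q / 2 := by
  unfold midDeg midCard
  rw [if_neg hq2]
  rcases hq.eq_two_or_odd with h | h
  · exact absurd h hq2
  · omega

end Roots

/-! ### the separating function -/

section Modular

variable (M₀ q : ℕ) [NeZero M₀] [NeZero q]

/-- `j`, as an element of `F = F_{M₀ q²}`. -/
def distJ : ↥(modularFunctionFieldBar (M₀ * q * q)) :=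
  heckeAlphaBar Qb (M₀ * q) q (Fermat.Agent.S24.jBar (M₀ * q))

/-- `j(q^{q²})`, as an element of `F = F_{M₀ q²}`. -/
def distJ2 : ↥(modularFunctionFieldBar (M₀ * q * q)) :=
  heckeBetaBar Qb (M₀ * q) q (heckeBetaBar Qb M₀ q (Fermat.Agent.S24.jBar M₀))

/-- the generator `(j(q^{q²}) - j) / (w - 1)`. -/
def distGen (w : Qb) : ↥(modularFunctionFieldBar (M₀ * q * q)) :=
  (distJ2 M₀ q - distJ M₀ q) * algebraMap Qb _ (w - 1)⁻¹

variable {M₀ q}

theorem dist_algebraMap_eq_C (c : Qb) :
    algebraMap Qb (LaurentSeries Qb) c = HahnSeries.C c := by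
  have h1 : algebraMap Qb (PowerSeries Qb) c = PowerSeries.C c := by simp
  rw [HahnSeries.algebraMap_apply', h1, HahnSeries.ofPowerSeries_C]

theorem dist_eps_distGen {z : Qbˣ}
    {ε : ↥(modularFunctionFieldBar (M₀ * q * q)) →ₐ[Qb] LaurentSeries Qb}
    (hε : IsMidExp M₀ q z ε) (w : Qb) :
    ε (distGen M₀ q w) =
      (scaleL z (jqModC Qb) - jqModC Qb) * HahnSeries.C ((w - 1)⁻¹) := by
  unfold distGen distJ distJ2
  rw [map_mul, map_sub, hε.beta2, hε.alpha, AlgHom.commutes,
    Fermat.Agent.S24.coe_jBar_eq_jqModC, Fermat.Agent.S24.coe_jBar_eq_jqModC,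
    dist_algebraMap_eq_C]

theorem distGen_rel (z : Qbˣ) (a : ℕ) (hz1 : (z : Qb) - 1 ≠ 0)
    (hza1 : ((z ^ a : Qbˣ) : Qb) - 1 ≠ 0) :
    distGen M₀ q (z : Qb) =
      distGen M₀ q ((z ^ a : Qbˣ) : Qb) * algebraMap Qb _ (distGeom z a) := by
  unfold distGen
  rw [mul_assoc (distJ2 M₀ q - distJ M₀ q), ← map_mul]
  congr 2
  have h := distGeom_mul z a
  rw [← Units.val_pow_eq_pow_val] at h
  rw [← h, mul_inv, mul_comm (distGeom z a)⁻¹, mul_assoc, inv_mul_cancel₀, mul_one]
  intro h0
  rw [h0, zero_mul] at h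
  exact hza1 h.symm

/-- **`(⇒)`**: for a non-square `a` the valuations `v_z` and `v_{z ^ a}` are distinct. -/
theorem dist_ne_of_not_isSquare (hTheta : IgThetaRes M₀ q) (hKum : IgKummer M₀ q)
    (hOver : IgMidOverInf M₀ q) (hq : q.Prime) (A : ValuationSubring Qb)
    (hA : A.LiesOverPrime q) (z : Qbˣ) (a : ℕ)
    (ε ε' : ↥(modularFunctionFieldBar (M₀ * q * q)) →ₐ[Qb] LaurentSeries Qb)
    (hz : IsPrimitiveRoot z q) (hε : IsMidExp M₀ q z ε) (hε' : IsMidExp M₀ q (z ^ a) ε')
    (hns : ¬ IsSquare (a : ZMod q)) : expOv ε A ≠ expOv ε' A := by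
  have hq2 : q ≠ 2 := dist_ne_two_of_not_isSquare a hns
  haveI hchar : CharP (IsLocalRing.ResidueField A) q :=
    charP_residueField_of_liesOverPrime A q hq hA
  have hqa : ¬ q ∣ a := fun h =>
    hns (by rw [(ZMod.natCast_eq_zero_iff a q).mpr h]; exact ⟨0, by simp⟩)
  have hza : IsPrimitiveRoot (z ^ a) q :=
    hz.pow_of_coprime a ((Nat.Prime.coprime_iff_not_dvd hq).mpr hqa).symm
  have hzq : z ^ q = 1 := hz.pow_eq_one
  have hz1 : (z : Qb) - 1 ≠ 0 := by
    intro h
    apply hz.ne_one hq.one_lt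
    apply Units.ext
    rw [Units.val_one]
    exact sub_eq_zero.mp h
  have hza1 : ((z ^ a : Qbˣ) : Qb) - 1 ≠ 0 := by
    intro h
    apply hza.ne_one hq.one_lt
    apply Units.ext
    rw [Units.val_one]
    exact sub_eq_zero.mp h
  -- the residues of the generator
  obtain ⟨hm, hr⟩ := hTheta hq A hA z ε hz hε (distGen M₀ q (z : Qb)) (dist_eps_distGen hε _)
  obtain ⟨hm', hr'⟩ := hTheta hq A hA (z ^ a) ε' hza hε' (distGen M₀ q ((z ^ a : Qbˣ) : Qb))
    (dist_eps_distGen hε' _)
  have hc : distGeom z a ∈ A := distGeom_mem A hq z hzq a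
  have hrel := distGen_rel (M₀ := M₀) (q := q) z a hz1 hza1
  have hmem' : distGen M₀ q (z : Qb) ∈ expOv ε' A := by
    rw [hrel]
    exact mul_mem hm' (dist_algebraMap_mem ε' A hc)
  have hres' : expRes ε' A (distGen M₀ q (z : Qb)) =
      Fermat.Agent.IgusaDeg.theta (IsLocalRing.ResidueField A)
          (jqModC (IsLocalRing.ResidueField A)) *
        algebraMap (IsLocalRing.ResidueField A) (LaurentSeries (IsLocalRing.ResidueField A))
          (a : IsLocalRing.ResidueField A) := by
    rw [hrel, dist_expRes_mul ε' A hm' (dist_algebraMap_mem ε' A hc), hr',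
      dist_expRes_algebraMap ε' A hc, dist_residue_distGeom A hq hA z hzq a]
  -- the Kummer element and its lift
  have hd : midDeg q = q / 2 := dist_midDeg_eq_of_ne_two hq hq2
  have hφmem := hKum hq (IsLocalRing.ResidueField A)
  obtain ⟨y, hy, hyφ⟩ := exists_gaussResFun_eq_bad (N := M₀) (ℓ := q) A (M₀ * q) rfl _ hφmem
  obtain ⟨hαm, hαr⟩ := hOver A z ε hε ⟨y, mem_of_mem_gaussSub hy⟩ hy
  obtain ⟨hαm', hαr'⟩ := hOver A (z ^ a) ε' hε' ⟨y, mem_of_mem_gaussSub hy⟩ hy
  have hφ0 : Fermat.Agent.IgusaDeg.theta (IsLocalRing.ResidueField A)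
      (jqModC (IsLocalRing.ResidueField A)) ^ midDeg q ≠ 0 :=
    pow_ne_zero _ Fermat.Agent.IgusaDeg.theta_jqModC_ne_zero
  refine dist_ne_of_sep ε A ε'
    (g := distGen M₀ q (z : Qb) ^ midDeg q -
      heckeAlphaBar Qb (M₀ * q) q ⟨y, mem_of_mem_gaussSub hy⟩)
    (sub_mem (pow_mem hm _) hαm) ?_ (sub_mem (pow_mem hmem' _) hαm') ?_
  · rw [dist_expRes_sub ε A (pow_mem hm _) hαm, dist_expRes_pow ε A hm, hr, hαr]
    show _ - gaussResFun A (modularFunctionFieldBar (M₀ * q)) y = 0
    rw [hyφ, sub_self]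
  · rw [dist_expRes_sub ε' A (pow_mem hmem' _) hαm', dist_expRes_pow ε' A hmem', hres', hαr']
    show _ - gaussResFun A (modularFunctionFieldBar (M₀ * q)) y ≠ 0
    rw [hyφ, mul_pow,
      ← map_pow (algebraMap (IsLocalRing.ResidueField A)
        (LaurentSeries (IsLocalRing.ResidueField A))), hd,
      dist_cast_pow_eq_neg_one hq (IsLocalRing.ResidueField A) a hns, map_neg, map_one,
      mul_neg, mul_one, ← hd]
    intro h
    have h2 : (2 : LaurentSeries (IsLocalRing.ResidueField A)) *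
        Fermat.Agent.IgusaDeg.theta (IsLocalRing.ResidueField A)
          (jqModC (IsLocalRing.ResidueField A)) ^ midDeg q = 0 := by
      linear_combination -h
    rcases mul_eq_zero.mp h2 with h3 | h3
    · have h4 : ((2 : ℕ) : IsLocalRing.ResidueField A) = 0 := by
        have h5 : algebraMap (IsLocalRing.ResidueField A)
            (LaurentSeries (IsLocalRing.ResidueField A)) ((2 : ℕ) : IsLocalRing.ResidueField A)
            = 0 := by
          rw [map_natCast]
          exact_mod_cast h3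
        exact (map_eq_zero _).mp h5
      have h6 := (CharP.cast_eq_zero_iff (IsLocalRing.ResidueField A) q 2).mp h4
      exact hq2 ((Nat.prime_dvd_prime_iff_eq hq Nat.prime_two).mp h6)
    · exact hφ0 h3

/-! ### the count and the final statement -/

variable (M₀ q) in
/-- **COUNT** (from the fundamental inequality for the extensions of the Gauss valuation of
`F₁` to `F`: `1 + 3 (q - 1) / 2 > q = [F : F₁]`): among three middle valuations two coincide. -/
def IgMidAtMostTwo : Prop :=
  q.Prime → ¬ q ∣ M₀ → ∀ (A : ValuationSubring Qb), A.LiesOverPrime q →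
    ∀ (z₁ z₂ z₃ : Qbˣ)
      (ε₁ ε₂ ε₃ : ↥(modularFunctionFieldBar (M₀ * q * q)) →ₐ[Qb] LaurentSeries Qb),
      IsPrimitiveRoot z₁ q → IsPrimitiveRoot z₂ q → IsPrimitiveRoot z₃ q →
      IsMidExp M₀ q z₁ ε₁ → IsMidExp M₀ q z₂ ε₂ → IsMidExp M₀ q z₃ ε₃ →
      expOv ε₁ A = expOv ε₂ A ∨ expOv ε₁ A = expOv ε₃ A ∨ expOv ε₂ A = expOv ε₃ A

theorem dist_pow_eq_of_cast_eq {z : Qbˣ} (hz : IsPrimitiveRoot z q) {m n : ℕ}
    (h : (m : ZMod q) = (n : ZMod q)) : z ^ m = z ^ n := by
  rw [pow_eq_pow_iff_modEq, ← hz.eq_orderOf]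
  exact (ZMod.natCast_eq_natCast_iff m n q).mp h

/-- **`(⇐)`, `q = 2`** (more generally `a ≡ 1`): the same root of unity. -/
theorem dist_eq_of_cast_eq_one (hUniq : IgMidExpUnique M₀ q) (A : ValuationSubring Qb)
    (z : Qbˣ) (a : ℕ)
    (ε ε' : ↥(modularFunctionFieldBar (M₀ * q * q)) →ₐ[Qb] LaurentSeries Qb)
    (hz : IsPrimitiveRoot z q) (hε : IsMidExp M₀ q z ε) (hε' : IsMidExp M₀ q (z ^ a) ε')
    (ha : (a : ZMod q) = 1) : expOv ε A = expOv ε' A := by
  have h1 : z ^ a = z := by
    have := dist_pow_eq_of_cast_eq hz (m := a) (n := 1) (by rw [ha, Nat.cast_one])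
    rwa [pow_one] at this
  rw [h1] at hε'
  rw [hUniq z ε ε' hε hε']

/-- **`(⇐)`**: for a square `a` the valuations `v_z` and `v_{z ^ a}` coincide. -/
theorem dist_eq_of_isSquare (hEx : IgMidExpExists M₀ q) (hUniq : IgMidExpUnique M₀ q)
    (hTheta : IgThetaRes M₀ q) (hKum : IgKummer M₀ q) (hOver : IgMidOverInf M₀ q)
    (hCard : IgMidAtMostTwo M₀ q) (hq : q.Prime) (hqM : ¬ q ∣ M₀) (A : ValuationSubring Qb)
    (hA : A.LiesOverPrime q) (z : Qbˣ) (a : ℕ)
    (ε ε' : ↥(modularFunctionFieldBar (M₀ * q * q)) →ₐ[Qb] LaurentSeries Qb)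
    (hz : IsPrimitiveRoot z q) (hqa : ¬ q ∣ a) (hε : IsMidExp M₀ q z ε)
    (hε' : IsMidExp M₀ q (z ^ a) ε') (hsq : IsSquare (a : ZMod q)) :
    expOv ε A = expOv ε' A := by
  haveI : Fact q.Prime := ⟨hq⟩
  have ha0 : (a : ZMod q) ≠ 0 := fun h => hqa ((ZMod.natCast_eq_zero_iff a q).mp h)
  have hza : IsPrimitiveRoot (z ^ a) q :=
    hz.pow_of_coprime a ((Nat.Prime.coprime_iff_not_dvd hq).mpr hqa).symm
  by_cases hq2 : q = 2
  · -- `q = 2`: `a` is odd
    apply dist_eq_of_cast_eq_one hUniq A z a ε ε' hz hε hε'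
    subst hq2
    revert ha0
    generalize (a : ZMod 2) = x
    intro hx
    fin_cases x
    · exact absurd rfl hx
    · rfl
  · -- `q` odd: a non-square `n`
    obtain ⟨x, hx⟩ := FiniteField.exists_nonsquare (F := ZMod q)
      (by rw [ZMod.ringChar_zmod_n]; exact hq2)
    have hxn : ((x.val : ℕ) : ZMod q) = x := ZMod.natCast_zmod_val x
    have hn : ¬ IsSquare ((x.val : ℕ) : ZMod q) := by rw [hxn]; exact hx
    have hqn : ¬ q ∣ x.val := fun h =>
      hn (by rw [(ZMod.natCast_eq_zero_iff _ q).mpr h]; exact ⟨0, by simp⟩)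
    have hzn : IsPrimitiveRoot (z ^ x.val) q :=
      hz.pow_of_coprime _ ((Nat.Prime.coprime_iff_not_dvd hq).mpr hqn).symm
    obtain ⟨ε₂, hε₂⟩ := hEx (z ^ x.val) hzn
    -- `v_z ≠ v_{z ^ n}`
    have h1 := dist_ne_of_not_isSquare hTheta hKum hOver hq A hA z x.val ε ε₂ hz hε hε₂ hn
    -- `v_{z ^ a} ≠ v_{z ^ n}`: `z ^ n = (z ^ a) ^ b`, `b = n / a` a non-square
    have hbx : (((x * (a : ZMod q)⁻¹).val : ℕ) : ZMod q) = x * (a : ZMod q)⁻¹ :=
      ZMod.natCast_zmod_val _
    have hbn : ¬ IsSquare (((x * (a : ZMod q)⁻¹).val : ℕ) : ZMod q) := by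
      rw [hbx]
      rintro ⟨s, hs⟩
      obtain ⟨t, ht⟩ := hsq
      apply hx
      refine ⟨s * t, ?_⟩
      have : x = x * (a : ZMod q)⁻¹ * (a : ZMod q) := by
        rw [mul_assoc, inv_mul_cancel₀ ha0, mul_one]
      rw [this, hs, ht]
      ring
    have hpow : (z ^ a) ^ (x * (a : ZMod q)⁻¹).val = z ^ x.val := by
      rw [← pow_mul]
      apply dist_pow_eq_of_cast_eq hz
      rw [Nat.cast_mul, hbx, hxn, mul_comm, mul_assoc, inv_mul_cancel₀ ha0, mul_one]
    have hε₃ : IsMidExp M₀ q ((z ^ a) ^ (x * (a : ZMod q)⁻¹).val) ε₂ := by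
      rw [hpow]; exact hε₂
    have h2 := dist_ne_of_not_isSquare hTheta hKum hOver hq A hA (z ^ a)
      (x * (a : ZMod q)⁻¹).val ε' ε₂ hza hε' hε₃ hbn
    rcases hCard hq hqM A hA z (z ^ a) (z ^ x.val) ε ε' ε₂ hz hza hzn hε hε' hε₂ with
      h | h | h
    · exact h
    · exact absurd h h1
    · exact absurd h h2

/-- **(IG6) `IgMidDistinct`**: `v_z = v_{z ^ a}` iff `a` is a square modulo `q`. -/
theorem igMidDistinct_of (hEx : IgMidExpExists M₀ q) (hUniq : IgMidExpUnique M₀ q)
    (hTheta : IgThetaRes M₀ q) (hKum : IgKummer M₀ q) (hOver : IgMidOverInf M₀ q)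
    (hCard : IgMidAtMostTwo M₀ q) : IgMidDistinct M₀ q := by
  intro hq hqM A hA z a ε ε' hz hqa hε hε'
  constructor
  · intro h
    by_contra hns
    exact dist_ne_of_not_isSquare hTheta hKum hOver hq A hA z a ε ε' hz hε hε' hns h
  · exact dist_eq_of_isSquare hEx hUniq hTheta hKum hOver hCard hq hqM A hA z a ε ε' hz hqa
      hε hε'

end Modular

end Fermat.Agent.S36G
end
end MergeWrap_S36_Igusa_Dist

section MergeWrap_S36_Igusa_DegF -- from S36/Igusa/DegF.lean
attribute [local instance 10000] SubalgebraClass.toAlgebra HahnSeries.powerSeriesAlgebra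

set_option autoImplicit false
set_option linter.style.haveILetI false

noncomputable section

namespace Fermat.Agent.S36G

open ModularCurve AlgebraicCurve

local notation "Qb" => AlgebraicClosure ℚ

/-- `[F_{N q} : F_N] = q` for a prime `q ∣ N` (along `heckeAlphaBar`), in the `finrankAlong`
form. -/
theorem igdf_finrankAlong (N q : ℕ) [NeZero N] [NeZero q] (hq : q.Prime) (hqN : q ∣ N) :
    finrankAlong Qb (heckeAlphaBar Qb N q) = q := by
  have h1 := Fermat.Agent.EDescComm.finrankAlong_mul_dedekindPsi (A := N) (B := N * q)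
    (dvd_mul_right N q) (heckeAlphaBar Qb N q) (fun x => coe_heckeAlphaBar N q x)
  have h2 := Fermat.Agent.HeckeComm.dedekindPsi_mul_prime_eq hq (NeZero.ne N)
  rw [Fermat.Agent.HeckeComm.psiFactor, if_pos hqN] at h2
  have hpos : 0 < dedekindPsi N :=
    Fermat.Agent.EDescComm.dedekindPsi_pos_of_pos (Nat.pos_of_ne_zero (NeZero.ne N))
  rw [h2, mul_comm (dedekindPsi N) q] at h1
  exact Nat.eq_of_mul_eq_mul_right hpos h1

/-- `[F_{N q} : F_N] = q` for a prime `q ∣ N` (along `heckeAlphaBar`). -/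
theorem igdf_finrank (N q : ℕ) [NeZero N] [NeZero q] (hq : q.Prime) (hqN : q ∣ N) :
    letI := (heckeAlphaBar Qb N q).toRingHom.toAlgebra
    FiniteDimensional ↥(modularFunctionFieldBar N) ↥(modularFunctionFieldBar (N * q)) ∧
      Module.finrank ↥(modularFunctionFieldBar N) ↥(modularFunctionFieldBar (N * q)) = q := by
  letI := (heckeAlphaBar Qb N q).toRingHom.toAlgebra
  have h : Module.finrank ↥(modularFunctionFieldBar N) ↥(modularFunctionFieldBar (N * q)) = q :=
    igdf_finrankAlong N q hq hqN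
  refine ⟨?_, h⟩
  exact Module.finite_of_finrank_pos (by rw [h]; exact hq.pos)

/-- **(DEG)** `[F_{M₀ q²} : F_{M₀ q}] = q` along `π₁^* = heckeAlphaBar`. -/
theorem igDegF (M₀ q : ℕ) [NeZero M₀] [NeZero q] : IgDegF M₀ q := by
  intro hq _
  exact igdf_finrank (M₀ * q) q hq (dvd_mul_left q M₀)

end Fermat.Agent.S36G
end
end MergeWrap_S36_Igusa_DegF

section MergeWrap_S36_Igusa_AsmUpper -- from S36/Igusa/AsmUpper.lean

set_option autoImplicit false
set_option synthInstance.maxHeartbeats 400000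
set_option linter.style.haveILetI false
set_option linter.unusedSectionVars false
set_option linter.unusedVariables false

noncomputable section

attribute [local instance 10000] SubalgebraClass.toAlgebra HahnSeries.powerSeriesAlgebra

namespace Fermat.Agent.S36G

open ModularCurve AlgebraicCurve Fermat.Agent.GaussInt Fermat.Agent.Deuring
  Fermat.Agent.Kronecker Fermat.Agent.BadRed

local notation "Qb" => AlgebraicClosure ℚ

/-! ### generic: the maximal ideal of `expVal` is the kernel of `expRes` -/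

section Generic

variable {F : Type*} [Field F] [Algebra Qb F] {ε : F →ₐ[Qb] LaurentSeries Qb}
  {A : ValuationSubring Qb}

theorem expRes_eq_zero_of_mem_nonunits (hV : ∀ f : F, f ∈ expOv ε A ∨ f⁻¹ ∈ expOv ε A) {f : F}
    (hf : f ∈ (expVal hV).nonunits) : expRes ε A f = 0 := by
  by_contra hne
  have hmem : f ∈ expOv ε A := (expVal hV).nonunits_le hf
  rw [ValuationSubring.mem_nonunits_iff_or] at hf
  rcases hf with h0 | hinv
  · exact hne (h0 ▸ expRes_zero ε A)
  · exact hinv (inv_mem_expOv ε A hmem hne)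

theorem mem_nonunits_of_expRes_eq_zero (hV : ∀ f : F, f ∈ expOv ε A ∨ f⁻¹ ∈ expOv ε A) {f : F}
    (hf : f ∈ expOv ε A) (h0 : expRes ε A f = 0) : f ∈ (expVal hV).nonunits := by
  rw [ValuationSubring.mem_nonunits_iff_or]
  by_cases hf0 : f = 0
  · exact Or.inl hf0
  · right
    intro hinv
    have := expRes_mul ε A hf hinv
    rw [mul_inv_cancel₀ hf0, expRes_one, h0, zero_mul] at this
    exact one_ne_zero this

theorem expRes_sub {f g : F} (hf : f ∈ expOv ε A) (hg : g ∈ expOv ε A) :
    expRes ε A (f - g) = expRes ε A f - expRes ε A g :=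
  map_sub (expResHom ε A) ⟨f, hf⟩ ⟨g, hg⟩

theorem expRes_pow {f : F} (hf : f ∈ expOv ε A) (n : ℕ) :
    expRes ε A (f ^ n) = expRes ε A f ^ n :=
  map_pow (expResHom ε A) ⟨f, hf⟩ n

theorem expRes_sum {ι : Type*} (s : Finset ι) (f : ι → F) (hf : ∀ i, f i ∈ expOv ε A) :
    (∑ i ∈ s, f i) ∈ expOv ε A ∧
      expRes ε A (∑ i ∈ s, f i) = ∑ i ∈ s, expRes ε A (f i) := by
  classical
  induction s using Finset.induction_on with
  | empty =>
    simp only [Finset.sum_empty]
    exact ⟨(expOv ε A).zero_mem, expRes_zero ε A⟩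
  | insert i s hi ih =>
    rw [Finset.sum_insert hi, Finset.sum_insert hi]
    exact ⟨(expOv ε A).add_mem (hf i) ih.1, by rw [expRes_add ε A (hf i) ih.1, ih.2]⟩

end Generic

/-! ### the modular count -/

section Modular

variable (M₀ q : ℕ) [NeZero M₀] [NeZero q]

/-- **(L2)** (seat IG-LIES): `v_z` lies over the Gauss valuation of `F₁`. -/
def IgLiesMid : Prop :=
  ∀ (hq : q.Prime) (A : ValuationSubring Qb) (hA : A.LiesOverPrime q) (z : Qbˣ)
    (ε : ↥(modularFunctionFieldBar (M₀ * q * q)) →ₐ[Qb] LaurentSeries Qb),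
    IsMidExp M₀ q z ε → ∀ hV : (∀ f, f ∈ expOv ε A ∨ f⁻¹ ∈ expOv ε A),
      @LiesOverV _ _ _ _ (algebraAlong (heckeAlphaBar Qb (M₀ * q) q))
        (gaussOv (M₀ * q) hq A hA) (expVal hV)

variable {M₀ q}
variable (hq : q.Prime) (A : ValuationSubring Qb) (hA : A.LiesOverPrime q)

/-- the residues of the Gauss ring of `F₁ = F_{M₀ q}` lie in `k(Z)`. -/
theorem ig_res_mem_fullC (hqM : ¬ q ∣ M₀) {y : ↥(modularFunctionFieldBar (M₀ * q))}
    (hy : y ∈ gaussOv (M₀ * q) hq A hA) :
    gaussResFun A (modularFunctionFieldBar (M₀ * q)) (y : LaurentSeries Qb) ∈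
      modularFunctionFieldFullC (IsLocalRing.ResidueField A) M₀ :=
  gaussResFun_mem_fullC_mul hq hqM A hA (modFactsAt M₀ q hq hqM A hA) _ hy

/-- an element of the Gauss ring of `F₁` with residue `0` lies in the maximal ideal. -/
theorem ig_mem_nonunits_of_res {y : ↥(modularFunctionFieldBar (M₀ * q))}
    (hy : y ∈ gaussOv (M₀ * q) hq A hA)
    (h0 : gaussResFun A (modularFunctionFieldBar (M₀ * q)) (y : LaurentSeries Qb) = 0) :
    y ∈ (gaussOv (M₀ * q) hq A hA).nonunits := by
  have h1 : ¬ IsUnit (⟨y, hy⟩ : gaussOv (M₀ * q) hq A hA) :=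
    (gaussValRes_eq_zero_iff (gaussHyp_modular (K := Qb) (A := A) (M₀ * q) hq hA) ⟨y, hy⟩).mp h0
  exact (not_isUnit_iff_mem_nonunits _ ⟨y, hy⟩).mp h1

/-- **residual independence of the powers of the generator** at `v_z`. -/
theorem ig_resIndep_pow (hqM : ¬ q ∣ M₀) (hPow : IgPowIndepRes M₀ q) {z : Qbˣ}
    {ε : ↥(modularFunctionFieldBar (M₀ * q * q)) →ₐ[Qb] LaurentSeries Qb}
    (hz : IsPrimitiveRoot z q) (hε : IsMidExp M₀ q z ε)
    (hV : ∀ f, f ∈ expOv ε A ∨ f⁻¹ ∈ expOv ε A) :
    @ResIndep _ _ _ _ (algebraAlong (heckeAlphaBar Qb (M₀ * q) q))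
      (gaussOv (M₀ * q) hq A hA) (expVal hV) (Fin (midDeg q)) _
      (fun l => distGen M₀ q (z : Qb) ^ (l : ℕ)) := by
  letI := algebraAlong (heckeAlphaBar Qb (M₀ * q) q)
  haveI := isAlgClosed_residue A
  haveI : CharP (IsLocalRing.ResidueField A) q := charP_residueField_of_liesOverPrime A q hq hA
  obtain ⟨hm, hr⟩ := igThetaRes M₀ q hq A hA z ε hz hε (distGen M₀ q (z : Qb))
    (dist_eps_distGen hε _)
  refine ⟨fun l => (expOv ε A).pow_mem hm _, ?_⟩
  intro a ha hS
  have hS' : (∑ l, heckeAlphaBar Qb (M₀ * q) q (a l) * distGen M₀ q (z : Qb) ^ (l : ℕ)) ∈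
      (expVal hV).nonunits := hS
  have hterm : ∀ l, heckeAlphaBar Qb (M₀ * q) q (a l) * distGen M₀ q (z : Qb) ^ (l : ℕ) ∈
        expOv ε A := fun l =>
    (expOv ε A).mul_mem (igMidOverInf M₀ q A z ε hε (a l) (ha l)).1 ((expOv ε A).pow_mem hm _)
  have h0 := expRes_eq_zero_of_mem_nonunits hV hS'
  rw [(expRes_sum Finset.univ _ hterm).2] at h0
  have h1 : ∀ l, expRes ε A (heckeAlphaBar Qb (M₀ * q) q (a l) *
        distGen M₀ q (z : Qb) ^ (l : ℕ)) =
      gaussResFun A (modularFunctionFieldBar (M₀ * q)) ((a l : ↥(modularFunctionFieldBar (M₀ * q))) :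
        LaurentSeries Qb) *
        Fermat.Agent.IgusaDeg.theta (IsLocalRing.ResidueField A)
          (jqModC (IsLocalRing.ResidueField A)) ^ (l : ℕ) := by
    intro l
    rw [expRes_mul ε A (igMidOverInf M₀ q A z ε hε (a l) (ha l)).1 ((expOv ε A).pow_mem hm _),
      expRes_pow hm, hr]
    congr 1
    exact (igMidOverInf M₀ q A z ε hε (a l) (ha l)).2
  simp only [h1] at h0
  intro l
  have h2 := hPow hq hqM A hA
    (fun l => gaussResFun A (modularFunctionFieldBar (M₀ * q))
      ((a l : ↥(modularFunctionFieldBar (M₀ * q))) : LaurentSeries Qb))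
    (fun l => ig_res_mem_fullC hq A hA hqM (ha l)) h0 l
  exact ig_mem_nonunits_of_res hq A hA (ha l) h2

/-- from a residual expansion in the powers of the generator to `k(Z)(θ j̄)`. -/
theorem ig_res_mem_of_span (hqM : ¬ q ∣ M₀) {z : Qbˣ}
    {ε : ↥(modularFunctionFieldBar (M₀ * q * q)) →ₐ[Qb] LaurentSeries Qb}
    (hz : IsPrimitiveRoot z q) (hε : IsMidExp M₀ q z ε)
    (hV : ∀ f, f ∈ expOv ε A ∨ f⁻¹ ∈ expOv ε A) {d : ℕ}
    (g : Fin d → ↥(modularFunctionFieldBar (M₀ * q)))
    (hg : ∀ l, g l ∈ gaussOv (M₀ * q) hq A hA)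
    {f : ↥(modularFunctionFieldBar (M₀ * q * q))} (hf : f ∈ expOv ε A)
    (h : f - ∑ l, heckeAlphaBar Qb (M₀ * q) q (g l) * distGen M₀ q (z : Qb) ^ (l : ℕ) ∈
      (expVal hV).nonunits) :
    expRes ε A f ∈ igField (IsLocalRing.ResidueField A) M₀ := by
  obtain ⟨hm, hr⟩ := igThetaRes M₀ q hq A hA z ε hz hε (distGen M₀ q (z : Qb))
    (dist_eps_distGen hε _)
  have hterm : ∀ l, heckeAlphaBar Qb (M₀ * q) q (g l) * distGen M₀ q (z : Qb) ^ (l : ℕ) ∈
        expOv ε A := fun l =>
    (expOv ε A).mul_mem (igMidOverInf M₀ q A z ε hε (g l) (hg l)).1 ((expOv ε A).pow_mem hm _)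
  have hsum := expRes_sum (ε := ε) (A := A) Finset.univ _ hterm
  have h0 := expRes_eq_zero_of_mem_nonunits hV h
  rw [expRes_sub hf hsum.1, sub_eq_zero] at h0
  rw [h0, hsum.2]
  refine sum_mem fun l _ => ?_
  rw [expRes_mul ε A (igMidOverInf M₀ q A z ε hε (g l) (hg l)).1 ((expOv ε A).pow_mem hm _),
    expRes_pow hm, hr, (igMidOverInf M₀ q A z ε hε (g l) (hg l)).2]
  exact mul_mem (fullC_le_igField _ M₀ (ig_res_mem_fullC hq A hA hqM (hg l)))
    (pow_mem (theta_mem_igField _ M₀) _)

/-- `v_z ≠ v_∞`. -/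
theorem ig_gaussOv_ne_expVal (hqM : ¬ q ∣ M₀) {z : Qbˣ}
    {ε : ↥(modularFunctionFieldBar (M₀ * q * q)) →ₐ[Qb] LaurentSeries Qb}
    (hz : IsPrimitiveRoot z q) (hε : IsMidExp M₀ q z ε)
    (hV : ∀ f, f ∈ expOv ε A ∨ f⁻¹ ∈ expOv ε A) :
    gaussOv (M₀ * q * q) hq A hA ≠ expVal hV := by
  obtain ⟨f, hf1, hf2, hf3, hf4⟩ := igMidNeInf M₀ q hq hqM A hA z ε hz hε
  intro h
  apply hf4
  have h2 : f⁻¹ ∈ expVal hV := h ▸ hf2
  exact h2

include hq hA in
/-- `v_z ≠ v_{z^a}` for a non-square `a`, as valuation subrings. -/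
theorem ig_expVal_ne_expVal {z : Qbˣ} {a : ℕ}
    {ε ε' : ↥(modularFunctionFieldBar (M₀ * q * q)) →ₐ[Qb] LaurentSeries Qb}
    (hz : IsPrimitiveRoot z q) (hns : ¬ IsSquare (a : ZMod q))
    (hε : IsMidExp M₀ q z ε) (hε' : IsMidExp M₀ q (z ^ a) ε')
    (hV : ∀ f, f ∈ expOv ε A ∨ f⁻¹ ∈ expOv ε A)
    (hV' : ∀ f, f ∈ expOv ε' A ∨ f⁻¹ ∈ expOv ε' A) :
    expVal hV ≠ expVal hV' := by
  intro h
  apply dist_ne_of_not_isSquare (igThetaRes M₀ q) (igKummer M₀ q) (igMidOverInf M₀ q) hq A hA
    z a ε ε' hz hε hε' hns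
  have h2 : (expVal hV).toSubring = (expVal hV').toSubring := by rw [h]
  exact h2

/-- **the saturated system for `q` odd**: `v_∞`, `v_z`, `v_{z^a}`. -/
theorem ig_satExt_odd (hqM : ¬ q ∣ M₀) (hPow : IgPowIndepRes M₀ q) (hLies : IgLiesMid M₀ q)
    (hq2 : q ≠ 2) {z : Qbˣ} {a : ℕ}
    {ε ε' : ↥(modularFunctionFieldBar (M₀ * q * q)) →ₐ[Qb] LaurentSeries Qb}
    (hz : IsPrimitiveRoot z q) (hza : IsPrimitiveRoot (z ^ a) q)
    (hns : ¬ IsSquare (a : ZMod q))
    (hε : IsMidExp M₀ q z ε) (hε' : IsMidExp M₀ q (z ^ a) ε')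
    (hV : ∀ f, f ∈ expOv ε A ∨ f⁻¹ ∈ expOv ε A)
    (hV' : ∀ f, f ∈ expOv ε' A ∨ f⁻¹ ∈ expOv ε' A) :
    letI := algebraAlong (heckeAlphaBar Qb (M₀ * q) q)
    SatExt (gaussOv (M₀ * q) hq A hA)
      (rng3 (gaussOv (M₀ * q * q) hq A hA) (expVal hV) (expVal hV'))
      (cnt3 1 (midDeg q) (midDeg q))
      (fam3 (fun _ : Fin 1 => (1 : ↥(modularFunctionFieldBar (M₀ * q * q))))
        (fun l : Fin (midDeg q) => distGen M₀ q (z : Qb) ^ (l : ℕ))
        (fun l : Fin (midDeg q) => distGen M₀ q ((z ^ a : Qbˣ) : Qb) ^ (l : ℕ))) := by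
  letI := algebraAlong (heckeAlphaBar Qb (M₀ * q) q)
  have h1 : LiesOverV (gaussOv (M₀ * q) hq A hA) (gaussOv (M₀ * q * q) hq A hA) :=
    liesOverV_gaussOv (N := M₀ * q) (ℓ := q) hq A hA
  have h2 : LiesOverV (gaussOv (M₀ * q) hq A hA) (expVal hV) := hLies hq A hA z ε hε hV
  have h3 : LiesOverV (gaussOv (M₀ * q) hq A hA) (expVal hV') :=
    hLies hq A hA (z ^ a) ε' hε' hV'
  have h12 := ig_gaussOv_ne_expVal hq A hA hqM hz hε hV
  have h13 := ig_gaussOv_ne_expVal hq A hA hqM hza hε' hV'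
  have h23 := ig_expVal_ne_expVal hq A hA hz hns hε hε' hV hV'
  obtain ⟨c, hc, hcu⟩ := exists_constants (N := M₀ * q) hq A hA
  refine
    { finite := (igDegF M₀ q hq hqM).1
      liesOver := fun i => by
        fin_cases i
        · exact h1
        · exact h2
        · exact h3
      inj := fun i j hij => by
        fin_cases i <;> fin_cases j <;>
          first
            | rfl
            | exact absurd hij h12
            | exact absurd hij h13
            | exact absurd hij h23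
            | exact absurd hij.symm h12
            | exact absurd hij.symm h13
            | exact absurd hij.symm h23
      infinite := ⟨c, hc, hcu⟩
      indep := fun i => by
        fin_cases i
        · exact resIndep_one h1
        · exact ig_resIndep_pow hq A hA hqM hPow hz hε hV
        · exact ig_resIndep_pow hq A hA hqM hPow hza hε' hV'
      sum_eq := ?_ }
  rw [(igDegF M₀ q hq hqM).2, Fin.sum_univ_three]
  show 1 + midDeg q + midDeg q = q
  rw [dist_midDeg_eq_of_ne_two hq hq2]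
  rcases hq.eq_two_or_odd with h | h
  · exact absurd h hq2
  · omega

/-- **the saturated system for `q = 2`**: `v_∞`, `v_z`. -/
theorem ig_satExt_two (hqM : ¬ q ∣ M₀) (hLies : IgLiesMid M₀ q)
    (hq2 : q = 2) {z : Qbˣ}
    {ε : ↥(modularFunctionFieldBar (M₀ * q * q)) →ₐ[Qb] LaurentSeries Qb}
    (hz : IsPrimitiveRoot z q) (hε : IsMidExp M₀ q z ε)
    (hV : ∀ f, f ∈ expOv ε A ∨ f⁻¹ ∈ expOv ε A) :
    letI := algebraAlong (heckeAlphaBar Qb (M₀ * q) q)
    SatExt (gaussOv (M₀ * q) hq A hA)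
      (fun i : Fin 2 => if i = 0 then gaussOv (M₀ * q * q) hq A hA else expVal hV)
      (fun _ => 1)
      (fun _ _ => (1 : ↥(modularFunctionFieldBar (M₀ * q * q)))) := by
  letI := algebraAlong (heckeAlphaBar Qb (M₀ * q) q)
  have h1 : LiesOverV (gaussOv (M₀ * q) hq A hA) (gaussOv (M₀ * q * q) hq A hA) :=
    liesOverV_gaussOv (N := M₀ * q) (ℓ := q) hq A hA
  have h2 : LiesOverV (gaussOv (M₀ * q) hq A hA) (expVal hV) := hLies hq A hA z ε hε hV
  have h12 := ig_gaussOv_ne_expVal hq A hA hqM hz hε hV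
  obtain ⟨c, hc, hcu⟩ := exists_constants (N := M₀ * q) hq A hA
  refine
    { finite := (igDegF M₀ q hq hqM).1
      liesOver := fun i => by
        fin_cases i
        · exact h1
        · exact h2
      inj := fun i j hij => by
        fin_cases i <;> fin_cases j <;>
          first
            | rfl
            | exact absurd hij h12
            | exact absurd hij.symm h12
      infinite := ⟨c, hc, hcu⟩
      indep := fun i => by
        fin_cases i
        · exact resIndep_one h1
        · exact resIndep_one h2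
      sum_eq := ?_ }
  rw [(igDegF M₀ q hq hqM).2, Fin.sum_univ_two, hq2]

omit [NeZero M₀] [NeZero q] in
include hq in
/-- a non-square modulo an odd prime. -/
theorem ig_exists_nonsquare (hq2 : q ≠ 2) :
    ∃ a : ℕ, ¬ q ∣ a ∧ ¬ IsSquare (a : ZMod q) := by
  haveI : Fact q.Prime := ⟨hq⟩
  have hchar : ringChar (ZMod q) ≠ 2 := by
    rw [ZMod.ringChar_zmod_n]
    exact hq2
  obtain ⟨x, hx⟩ := FiniteField.exists_nonsquare hchar
  have hxv : ((x.val : ℕ) : ZMod q) = x := ZMod.natCast_zmod_val x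
  refine ⟨x.val, ?_, by rwa [hxv]⟩
  intro h
  apply hx
  rw [← hxv, (ZMod.natCast_eq_zero_iff x.val q).mpr h]
  exact ⟨0, by simp⟩

/-- **(U)** the residues of the middle valuations lie in `k(Z)(θ j̄)`. -/
theorem igResUpper_of (hVal : IgValRing M₀ q) (hExp : IgMidExpExists M₀ q)
    (hPow : IgPowIndepRes M₀ q) (hLies : IgLiesMid M₀ q) : IgResUpper M₀ q := by
  intro hq hqM A hA z ε hz hε f hf
  letI := algebraAlong (heckeAlphaBar Qb (M₀ * q) q)
  have hV := hVal hq hqM A hA z ε hz hε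
  by_cases hq2 : q = 2
  · have T := ig_satExt_two hq A hA hqM hLies hq2 hz hε hV
    obtain ⟨g, hg, hgy⟩ := T.residue_span 1 (y := f) hf
    refine ig_res_mem_of_span hq A hA hqM hz hε hV g hg hf ?_
    have e : (∑ l, heckeAlphaBar Qb (M₀ * q) q (g l) * distGen M₀ q (z : Qb) ^ (l : ℕ)) =
        ∑ l, algebraMap ↥(modularFunctionFieldBar (M₀ * q))
          ↥(modularFunctionFieldBar (M₀ * q * q)) (g l) * 1 := by
      refine Finset.sum_congr rfl fun l _ => ?_
      rw [Fin.val_eq_zero l, pow_zero]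
      rfl
    rw [e]
    exact hgy
  · obtain ⟨a, hqa, hns⟩ := ig_exists_nonsquare hq hq2
    have hza : IsPrimitiveRoot (z ^ a) q :=
      hz.pow_of_coprime a ((Nat.Prime.coprime_iff_not_dvd hq).mpr hqa).symm
    obtain ⟨ε', hε'⟩ := hExp (z ^ a) hza
    have hV' := hVal hq hqM A hA (z ^ a) ε' hza hε'
    have T := ig_satExt_odd hq A hA hqM hPow hLies hq2 hz hza hns hε hε' hV hV'
    obtain ⟨g, hg, hgy⟩ := T.residue_span 1 (y := f) hf
    exact ig_res_mem_of_span hq A hA hqM hz hε hV g hg hf hgy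

/-- **COUNT**: among three middle valuations two coincide. -/
theorem igMidAtMostTwo_of (hVal : IgValRing M₀ q) (hExp : IgMidExpExists M₀ q)
    (hPow : IgPowIndepRes M₀ q) (hLies : IgLiesMid M₀ q) : IgMidAtMostTwo M₀ q := by
  intro hq hqM A hA z₁ z₂ z₃ ε₁ ε₂ ε₃ hz₁ hz₂ hz₃ hε₁ hε₂ hε₃
  letI := algebraAlong (heckeAlphaBar Qb (M₀ * q) q)
  by_cases hq2 : q = 2
  · left
    have h1 : IsPrimitiveRoot (z₁ : Qb) 2 := by
      rw [← hq2]
      exact IsPrimitiveRoot.coe_units_iff.mpr hz₁
    have h2 : IsPrimitiveRoot (z₂ : Qb) 2 := by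
      rw [← hq2]
      exact IsPrimitiveRoot.coe_units_iff.mpr hz₂
    have h12 : z₁ = z₂ := by
      apply Units.ext
      rw [h1.eq_neg_one_of_two_right, h2.eq_neg_one_of_two_right]
    rw [h12] at hε₁
    rw [igMidExpUnique M₀ q hq z₂ ε₁ ε₂ hε₁ hε₂]
  · obtain ⟨a, hqa, hns⟩ := ig_exists_nonsquare hq hq2
    have hza : IsPrimitiveRoot (z₁ ^ a) q :=
      hz₁.pow_of_coprime a ((Nat.Prime.coprime_iff_not_dvd hq).mpr hqa).symm
    obtain ⟨ε', hε'⟩ := hExp (z₁ ^ a) hza
    have hV₁ := hVal hq hqM A hA z₁ ε₁ hz₁ hε₁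
    have hV₂ := hVal hq hqM A hA z₂ ε₂ hz₂ hε₂
    have hV₃ := hVal hq hqM A hA z₃ ε₃ hz₃ hε₃
    have hV' := hVal hq hqM A hA (z₁ ^ a) ε' hza hε'
    have T := ig_satExt_odd hq A hA hqM hPow hLies hq2 hz₁ hza hns hε₁ hε' hV₁ hV'
    obtain ⟨i, hi⟩ := T.exists_eq (O' := expVal hV₂) (hLies hq A hA z₂ ε₂ hε₂ hV₂)
    obtain ⟨j, hj⟩ := T.exists_eq (O' := expVal hV₃) (hLies hq A hA z₃ ε₃ hε₃ hV₃)
    have key : ∀ {ε ε'' : ↥(modularFunctionFieldBar (M₀ * q * q)) →ₐ[Qb] LaurentSeries Qb}
        (h : ∀ f, f ∈ expOv ε A ∨ f⁻¹ ∈ expOv ε A)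
        (h' : ∀ f, f ∈ expOv ε'' A ∨ f⁻¹ ∈ expOv ε'' A),
        expVal h = expVal h' → expOv ε A = expOv ε'' A := by
      intro ε ε'' h h' e
      have e2 : (expVal h).toSubring = (expVal h').toSubring := by rw [e]
      exact e2
    fin_cases i
    · exact absurd hi.symm (ig_gaussOv_ne_expVal hq A hA hqM hz₂ hε₂ hV₂)
    · left
      exact (key hV₂ hV₁ hi).symm
    · fin_cases j
      · exact absurd hj.symm (ig_gaussOv_ne_expVal hq A hA hqM hz₃ hε₃ hV₃)
      · right; left
        exact (key hV₃ hV₁ hj).symm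
      · right; right
        exact key hV₂ hV₃ (hi.trans hj.symm)

end Modular

end Fermat.Agent.S36G
end
end MergeWrap_S36_Igusa_AsmUpper

section MergeWrap_S36_Igusa_Asm -- from S36/Igusa/Asm.lean

set_option autoImplicit false
set_option synthInstance.maxHeartbeats 400000

noncomputable section

namespace Fermat.Agent.S36G

open ModularCurve AlgebraicCurve Fermat.Agent.GaussInt Fermat.Agent.Deuring
  Fermat.Agent.Kronecker Fermat.Agent.BadRed Fermat.Agent.RR

local notation "Qb" => AlgebraicClosure ℚ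

variable (M₀ q : ℕ) [NeZero M₀] [NeZero q]

/-- **(IG-LIES)** in the form used by the count. -/
theorem igLiesMid : IgLiesMid M₀ q := fun hq A hA _ _ hε hV =>
  ig_liesOver_mid M₀ q hq A hA hε hV

/-- the degree at the residue fields, from the degree at all algebraically closed fields. -/
theorem igDegreeRes_of_degree (hDeg : IgDegree M₀ q) : IgDegreeRes M₀ q := by
  intro hq hqM A hA
  haveI := isAlgClosed_residue A
  haveI : CharP (IsLocalRing.ResidueField A) q := charP_residueField_of_liesOverPrime A q hq hA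
  exact hDeg hq hqM (IsLocalRing.ResidueField A)

/-- `IgDegreeRes` for `q < 5` (seat IG-RAM). -/
theorem igDegreeRes_small (h5 : ¬ 5 ≤ q) : IgDegreeRes M₀ q :=
  igDegreeRes_of_degree M₀ q (igDegree_small M₀ q h5)

/-- **(U)** the residues of `expOv ε A` lie in `k(Z)(θ j̄)` (given the degree). -/
theorem igResUpper_of_degree (hDeg : IgDegreeRes M₀ q) : IgResUpper M₀ q := fun hq hqM =>
  igResUpper_of (igValRing M₀ q) (igMidExpExists M₀ q hq hqM)
    (igPowIndepRes_of_degreeRes M₀ q hDeg) (igLiesMid M₀ q) hq hqM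

/-- **COUNT**: among three middle valuations two coincide (given the degree). -/
theorem igMidAtMostTwo_of_degree (hDeg : IgDegreeRes M₀ q) : IgMidAtMostTwo M₀ q :=
  fun hq hqM =>
    igMidAtMostTwo_of (igValRing M₀ q) (igMidExpExists M₀ q hq hqM)
      (igPowIndepRes_of_degreeRes M₀ q hDeg) (igLiesMid M₀ q) hq hqM

/-- **(L)** every element of `k(Z)(θ j̄)` is a residue of `expOv ε A`. -/
theorem ig_res_lower (hq : q.Prime) (A : ValuationSubring Qb) (hA : A.LiesOverPrime q)
    (z : Qbˣ) (ε : ↥(modularFunctionFieldBar (M₀ * q * q)) →ₐ[Qb] LaurentSeries Qb)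
    (hz : IsPrimitiveRoot z q) (hε : IsMidExp M₀ q z ε) :
    ∀ y ∈ igField (IsLocalRing.ResidueField A) M₀,
      ∃ f : ↥(modularFunctionFieldBar (M₀ * q * q)), f ∈ expOv ε A ∧ expRes ε A f = y := by
  have hle : igField (IsLocalRing.ResidueField A) M₀ ≤ expResField ε A := by
    unfold igField
    rw [IntermediateField.adjoin_le_iff]
    rintro x (hx | hx)
    · obtain ⟨y, hy, hyx⟩ := exists_gaussResFun_eq_bad (N := M₀) (ℓ := q) A (M₀ * q) rfl x hx
      obtain ⟨hm, hr⟩ := igMidOverInf M₀ q A z ε hε ⟨y, mem_of_mem_gaussSub hy⟩ hy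
      exact ⟨_, hm, hr.trans hyx⟩
    · rw [Set.mem_singleton_iff] at hx
      obtain ⟨hm, hr⟩ := igThetaRes M₀ q hq A hA z ε hz hε (distGen M₀ q (z : Qb))
        (dist_eps_distGen hε _)
      exact ⟨_, hm, hr.trans hx.symm⟩
  intro y hy
  exact hle hy

/-- **(IG1) `IgMidSetupExists`** from the degree and the Riemann–Roch package. -/
theorem igMidSetupExists_of (hDeg : IgDegreeRes M₀ q) (hRR : IgRR M₀ q) :
    IgMidSetupExists M₀ q := by
  intro hq hqM A hA z ε hz hε
  haveI := isAlgClosed_residue A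
  haveI : CharP (IsLocalRing.ResidueField A) q := charP_residueField_of_liesOverPrime A q hq hA
  have hV := igValRing M₀ q hq hqM A hA z ε hz hε
  have hU := igResUpper_of_degree M₀ q hDeg hq hqM A hA z ε hz hε
  have hL := ig_res_lower M₀ q hq A hA z ε hz hε
  have hsc := igScale M₀ q hq hqM A hA z ε hz hε
  have hF := RRMod.isRRField_bar (M₀ * q * q)
  have hFk := hRR hq hqM (IsLocalRing.ResidueField A)
  refine ⟨expValSetup hV (igField (IsLocalRing.ResidueField A) M₀) hU hL hsc hF hFk,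
    ⟨rfl, fun _ _ _ => rfl, fun _ => Iff.rfl, fun f hf => ?_⟩, ?_⟩
  · exact coe_expValSetup_red hV _ hU hL hsc hF hFk hf
  · exact hasLattice_expValSetup hV _ hU hL hsc hF hFk (igLattice M₀ q hq hqM A hA z ε hz hε)

/-- **(IG6) `IgMidDistinct`** from the degree. -/
theorem igMidDistinct_of_degree (hDeg : IgDegreeRes M₀ q) : IgMidDistinct M₀ q := fun hq hqM =>
  igMidDistinct_of (igMidExpExists M₀ q hq hqM) (igMidExpUnique M₀ q hq) (igThetaRes M₀ q)
    (igKummer M₀ q) (igMidOverInf M₀ q) (igMidAtMostTwo_of_degree M₀ q hDeg) hq hqM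

end Fermat.Agent.S36G
end
end MergeWrap_S36_Igusa_Asm
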