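import Mathlib
import Fermat.Agent.MU.S36.Igusa.Asm
import Fermat.Agent.MU.S36.Igusa.RR
import Fermat.Agent.MU.S36.Igusa.DegOf
import Fermat.Agent.MU.S36.Genus.SSPos
import Fermat.Agent.MU.S36.Genus.Hno

section MergeWrap_S36_Igusa_AsmAux -- from S36/Igusa/AsmAux.lean

set_option autoImplicit false
set_option synthInstance.maxHeartbeats 400000
set_option linter.style.haveILetI false

noncomputable section

namespace Fermat.Agent.S36G

open ModularCurve AlgebraicCurve Fermat.Agent.GaussInt Fermat.Agent.Deuring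
  Fermat.Agent.Kronecker Fermat.Agent.BadRed Fermat.Agent.RR

local notation "Qb" => AlgebraicClosure ℚ

/-- **(HNO)** at the residue fields of the places of `ℚ̄` over `q ≥ 5`: the function
`ssFun = Δ̄ ^ (1 - q)` has order `12` at every supersingular place (no elliptic points).
This is exactly the statement of `gen_hno` (seat GENUS). -/
def IgHno (M₀ q : ℕ) : Prop :=
  q.Prime → 5 ≤ q → ¬ q ∣ M₀ → ∀ (A : ValuationSubring Qb), A.LiesOverPrime q →
    ∀ P : Place (IsLocalRing.ResidueField A)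
        ↥(modularFunctionFieldFullC (IsLocalRing.ResidueField A) M₀),
      IsSSPlace (IsLocalRing.ResidueField A) M₀ q P →
      ∀ u : ↥(modularFunctionFieldFullC (IsLocalRing.ResidueField A) M₀),
        (u : LaurentSeries (IsLocalRing.ResidueField A)) =
          ssFun (IsLocalRing.ResidueField A) q → P.ord u = 12

variable (M₀ q : ℕ) [NeZero M₀] [NeZero q]

/-- **(IG2) at the residue fields, auxiliary level.** -/
theorem igDegreeRes_of_hno (hν2 : nuTwo M₀ = 0) (hν3 : nuThree M₀ = 0) (hno : IgHno M₀ q) :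
    IgDegreeRes M₀ q := by
  intro hq hqM A hA
  haveI := isAlgClosed_residue A
  haveI : CharP (IsLocalRing.ResidueField A) q := charP_residueField_of_liesOverPrime A q hq hA
  refine igDegree_at M₀ q hq hqM (IsLocalRing.ResidueField A)
    (igRR M₀ q hq hqM (IsLocalRing.ResidueField A)) ?_ ?_
  · intro h5
    obtain ⟨⟨P, hP⟩⟩ := gen_nonempty_isSSPlace M₀ hq hqM hν2 hν3
      (fun h => by omega) (fun h => by omega) hA
    exact ⟨P, hP⟩
  · intro h5 P hP u hu
    exact hno hq h5 hqM A hA P hP u hu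

/-- **(IG1)** the middle constant reductions exist (auxiliary level). -/
theorem igMidSetupExists_of_hno (hν2 : nuTwo M₀ = 0) (hν3 : nuThree M₀ = 0)
    (hno : IgHno M₀ q) : IgMidSetupExists M₀ q :=
  igMidSetupExists_of M₀ q (igDegreeRes_of_hno M₀ q hν2 hν3 hno) (igRR M₀ q)

/-- **(IG6)** the middle valuations are distinct up to squares (auxiliary level). -/
theorem igMidDistinct_of_hno (hν2 : nuTwo M₀ = 0) (hν3 : nuThree M₀ = 0)
    (hno : IgHno M₀ q) : IgMidDistinct M₀ q :=
  igMidDistinct_of_degree M₀ q (igDegreeRes_of_hno M₀ q hν2 hν3 hno)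

/-- **(U)** (auxiliary level). -/
theorem igResUpper_of_hno (hν2 : nuTwo M₀ = 0) (hν3 : nuThree M₀ = 0)
    (hno : IgHno M₀ q) : IgResUpper M₀ q :=
  igResUpper_of_degree M₀ q (igDegreeRes_of_hno M₀ q hν2 hν3 hno)

/-- **COUNT** (auxiliary level). -/
theorem igMidAtMostTwo_of_hno (hν2 : nuTwo M₀ = 0) (hν3 : nuThree M₀ = 0)
    (hno : IgHno M₀ q) : IgMidAtMostTwo M₀ q :=
  igMidAtMostTwo_of_degree M₀ q (igDegreeRes_of_hno M₀ q hν2 hν3 hno)

/-- **(IG1)** for `q < 5`: unconditional. -/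
theorem igMidSetupExists_small (h5 : ¬ 5 ≤ q) : IgMidSetupExists M₀ q :=
  igMidSetupExists_of M₀ q (igDegreeRes_small M₀ q h5) (igRR M₀ q)

/-- **(IG6)** for `q < 5`: unconditional. -/
theorem igMidDistinct_small (h5 : ¬ 5 ≤ q) : IgMidDistinct M₀ q :=
  igMidDistinct_of_degree M₀ q (igDegreeRes_small M₀ q h5)

end Fermat.Agent.S36G
end
end MergeWrap_S36_Igusa_AsmAux

section MergeWrap_S36_Igusa_Final -- from S36/Igusa/Final.lean

set_option autoImplicit false
set_option synthInstance.maxHeartbeats 400000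

noncomputable section

namespace Fermat.Agent.S36G

open ModularCurve AlgebraicCurve

local notation "Qb" => AlgebraicClosure ℚ

variable (M₀ q : ℕ) [NeZero M₀] [NeZero q]

/-- **(HNO)** at the auxiliary levels. -/
theorem igHno (hν2 : nuTwo M₀ = 0) (hν3 : nuThree M₀ = 0) : IgHno M₀ q :=
  fun hq h5 hqM _ hA P hP u hu => gen_hno M₀ hq h5 hqM hν2 hν3 hA P hP u hu

/-- **(IG2)** at the residue fields, auxiliary level. -/
theorem igDegreeRes_aux (hν2 : nuTwo M₀ = 0) (hν3 : nuThree M₀ = 0) : IgDegreeRes M₀ q :=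
  igDegreeRes_of_hno M₀ q hν2 hν3 (igHno M₀ q hν2 hν3)

/-- **(IG1)** the middle constant reductions exist (auxiliary level). -/
theorem igMidSetupExists_aux (hν2 : nuTwo M₀ = 0) (hν3 : nuThree M₀ = 0) :
    IgMidSetupExists M₀ q :=
  igMidSetupExists_of_hno M₀ q hν2 hν3 (igHno M₀ q hν2 hν3)

/-- **(IG6)** the middle valuations are distinct up to squares (auxiliary level). -/
theorem igMidDistinct_aux (hν2 : nuTwo M₀ = 0) (hν3 : nuThree M₀ = 0) :
    IgMidDistinct M₀ q :=
  igMidDistinct_of_hno M₀ q hν2 hν3 (igHno M₀ q hν2 hν3)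

/-- **(U)** the residues of the middle valuation rings lie in `k(Z)(θ j̄)` (auxiliary level). -/
theorem igResUpper_aux (hν2 : nuTwo M₀ = 0) (hν3 : nuThree M₀ = 0) : IgResUpper M₀ q :=
  igResUpper_of_hno M₀ q hν2 hν3 (igHno M₀ q hν2 hν3)

/-- **COUNT**: among three middle valuations two coincide (auxiliary level). -/
theorem igMidAtMostTwo_aux (hν2 : nuTwo M₀ = 0) (hν3 : nuThree M₀ = 0) :
    IgMidAtMostTwo M₀ q :=
  igMidAtMostTwo_of_hno M₀ q hν2 hν3 (igHno M₀ q hν2 hν3)

end Fermat.Agent.S36G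
end
end MergeWrap_S36_Igusa_Final
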